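/-
GATE-J / J1-AUX  AUX-GAUSS(DEG), file 1 (helper28): complete integral closedness of `O((q))` in `k((q))`.

`O` a subring-like base of a field `k` which is *completely integrally closed* (`IsCIC`; e.g. a
discrete valuation ring with fraction field `k`).  If `d ≠ 0` and `d * x ^ i` has coefficients in
`O` for every `i`, then `x` has coefficients in `O`.  Consequence: a quotient `g / h` of integral
series which is integral over the ring of integral series is an integral series.

Mathlib + Prelude (`coeffMap`) only.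
-/
import Mathlib
import Fermat.Prelude.Def_ModularCurve_LaurentCoeff

set_option autoImplicit false

noncomputable section

namespace Fermat.Agent.GJ.GaussDeg

open ModularCurve HahnSeries Polynomial

variable {O k : Type*} [CommRing O] [Field k] [Algebra O k]

/-- `O` is completely integrally closed in the field `k` -/
def IsCIC (O k : Type*) [CommRing O] [Field k] [Algebra O k] : Prop :=
  ∀ (c : k) (d : O), algebraMap O k d ≠ 0 →
    (∀ i : ℕ, algebraMap O k d * c ^ i ∈ (algebraMap O k).range) → c ∈ (algebraMap O k).range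

open Classical in
/-- a series all of whose coefficients lie in `O` (below a cut `n₀`), lifted to `O` -/
def liftBelow (x : LaurentSeries k) (n₀ : WithTop ℤ) : LaurentSeries O where
  coeff m := if h : ((m : WithTop ℤ) < n₀ ∧ x.coeff m ≠ 0) ∧ x.coeff m ∈ (algebraMap O k).range
    then h.2.choose else 0
  isPWO_support' := by
    refine x.isPWO_support.mono fun m hm => ?_
    rw [Function.mem_support] at hm
    rw [HahnSeries.mem_support]
    by_contra h0
    apply hm
    rw [dif_neg]
    exact fun h => h.1.2 h0

open Classical in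
theorem coeffMap_liftBelow_coeff (x : LaurentSeries k) (n₀ : WithTop ℤ) (m : ℤ) :
    (coeffMap (algebraMap O k) (liftBelow (O := O) x n₀)).coeff m =
      if (m : WithTop ℤ) < n₀ ∧ x.coeff m ∈ (algebraMap O k).range then x.coeff m else 0 := by
  rw [coeffMap_coeff]
  show algebraMap O k (dite _ _ _) = _
  by_cases h0 : x.coeff m = 0
  · rw [dif_neg (fun h => h.1.2 h0), map_zero, h0]
    simp
  by_cases h1 : (m : WithTop ℤ) < n₀ ∧ x.coeff m ∈ (algebraMap O k).range
  · rw [dif_pos ⟨⟨h1.1, h0⟩, h1.2⟩, if_pos h1]
    exact h1.2.choose_spec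
  · rw [dif_neg (fun h => h1 ⟨h.1.1, h.2⟩), if_neg h1, map_zero]

/-- a series whose coefficients all lie in `O` is an integral series -/
theorem mem_range_coeffMap_of_forall_coeff {x : LaurentSeries k}
    (h : ∀ m, x.coeff m ∈ (algebraMap O k).range) : x ∈ (coeffMap (algebraMap O k)).range := by
  refine ⟨liftBelow x ⊤, ?_⟩
  ext m
  rw [coeffMap_liftBelow_coeff, if_pos ⟨WithTop.coe_lt_top m, h m⟩]

theorem coeff_mem_of_mem_range_coeffMap {x : LaurentSeries k}
    (h : x ∈ (coeffMap (algebraMap O k)).range) (m : ℤ) : x.coeff m ∈ (algebraMap O k).range := by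
  obtain ⟨y, rfl⟩ := h
  exact ⟨y.coeff m, rfl⟩

theorem leadingCoeff_pow' (x : LaurentSeries k) (i : ℕ) :
    (x ^ i).leadingCoeff = x.leadingCoeff ^ i := by
  induction i with
  | zero => simp
  | succ i ih => rw [pow_succ, HahnSeries.leadingCoeff_mul, ih, pow_succ]

/-- **Complete integral closedness of the integral series.** -/
theorem mem_range_coeffMap_of_forall_pow (hO : IsCIC O k) {x d : LaurentSeries k} (hd : d ≠ 0)
    (h : ∀ i : ℕ, d * x ^ i ∈ (coeffMap (algebraMap O k)).range) :
    x ∈ (coeffMap (algebraMap O k)).range := by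
  classical
  by_contra hx
  -- the least index with a non-integral coefficient
  have hex : ∃ m, x.coeff m ∉ (algebraMap O k).range := by
    by_contra hall
    push Not at hall
    exact hx (mem_range_coeffMap_of_forall_coeff hall)
  have hx0 : x ≠ 0 := by
    rintro rfl
    exact hx (zero_mem _)
  have hbdd : ∃ b : ℤ, ∀ z : ℤ, x.coeff z ∉ (algebraMap O k).range → b ≤ z := by
    refine ⟨x.order, fun z hz => ?_⟩
    by_contra hlt
    push Not at hlt
    exact hz (by rw [HahnSeries.coeff_eq_zero_of_lt_order hlt]; exact zero_mem _)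
  obtain ⟨n₀, hn₀, hmin⟩ := Int.exists_least_of_bdd hbdd hex
  -- subtract the integral part below `n₀`
  set y : LaurentSeries O := liftBelow x (n₀ : WithTop ℤ) with hy
  set Y : LaurentSeries k := coeffMap (algebraMap O k) y with hY
  set x' : LaurentSeries k := x - Y with hx'
  have hcoeff_lt : ∀ m, m < n₀ → x'.coeff m = 0 := by
    intro m hm
    have hmem : x.coeff m ∈ (algebraMap O k).range := by
      by_contra hnot
      exact absurd (hmin m hnot) (not_le.mpr hm)
    rw [hx', HahnSeries.coeff_sub, hY, hy, coeffMap_liftBelow_coeff,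
      if_pos ⟨by exact_mod_cast hm, hmem⟩, sub_self]
  have hcoeff_n₀ : x'.coeff n₀ = x.coeff n₀ := by
    rw [hx', HahnSeries.coeff_sub, hY, hy, coeffMap_liftBelow_coeff,
      if_neg (fun h => lt_irrefl _ h.1), sub_zero]
  have hn₀0 : x.coeff n₀ ≠ 0 := fun h0 => hn₀ (by rw [h0]; exact zero_mem _)
  have hx'0 : x' ≠ 0 := HahnSeries.ne_zero_of_coeff_ne_zero (by rw [hcoeff_n₀]; exact hn₀0)
  have hord : x'.order = n₀ := by
    apply le_antisymm
    · exact HahnSeries.order_le_of_coeff_ne_zero (by rw [hcoeff_n₀]; exact hn₀0)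
    · by_contra hlt
      push Not at hlt
      exact (HahnSeries.coeff_order_eq_zero.not.mpr hx'0) (hcoeff_lt _ hlt)
  have hlead : x'.leadingCoeff = x.coeff n₀ := by
    rw [HahnSeries.leadingCoeff_eq, hord, hcoeff_n₀]
  -- `d * x' ^ i` is integral for all `i`
  have hpow : ∀ i : ℕ, d * x' ^ i ∈ (coeffMap (algebraMap O k)).range := by
    intro i
    rw [hx', sub_eq_add_neg, add_pow, Finset.mul_sum]
    refine Subring.sum_mem _ fun l _ => ?_
    have h1 : d * (x ^ l * (-Y) ^ (i - l) * ((i.choose l : ℕ) : LaurentSeries k)) =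
        (d * x ^ l) * ((-Y) ^ (i - l) * ((i.choose l : ℕ) : LaurentSeries k)) := by ring
    rw [h1]
    have hYm : Y ∈ (coeffMap (algebraMap O k)).range := ⟨y, rfl⟩
    exact Subring.mul_mem _ (h l) (Subring.mul_mem _ (Subring.pow_mem _ (Subring.neg_mem _ hYm) _)
      (natCast_mem _ _))
  -- leading coefficients
  have hdlead : d.leadingCoeff ∈ (algebraMap O k).range := by
    rw [HahnSeries.leadingCoeff_eq]
    have := h 0
    rw [pow_zero, mul_one] at this
    exact coeff_mem_of_mem_range_coeffMap this _
  obtain ⟨d₀, hd₀⟩ := hdlead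
  have hd₀ne : algebraMap O k d₀ ≠ 0 := by
    rw [hd₀]
    exact HahnSeries.leadingCoeff_ne_zero.mpr hd
  refine hn₀ (hO (x.coeff n₀) d₀ hd₀ne fun i => ?_)
  have := coeff_mem_of_mem_range_coeffMap (hpow i) (d * x' ^ i).order
  rwa [← HahnSeries.leadingCoeff_eq, HahnSeries.leadingCoeff_mul, leadingCoeff_pow', hlead,
    ← hd₀] at this

/-- **A quotient of integral series which is integral over the integral series is an integral
series.** -/
theorem mem_range_coeffMap_of_isIntegral (hO : IsCIC O k) {x : LaurentSeries k}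
    {g h : LaurentSeries O} (hh : coeffMap (algebraMap O k) h ≠ 0)
    (hx : coeffMap (algebraMap O k) h * x = coeffMap (algebraMap O k) g)
    (hint : IsIntegral (coeffMap (algebraMap O k)).range x) :
    x ∈ (coeffMap (algebraMap O k)).range := by
  classical
  set R := (coeffMap (algebraMap O k)).range with hR
  obtain ⟨p, hp, hpx⟩ := hint
  set m := p.natDegree with hm
  set H := coeffMap (algebraMap O k) h with hH
  have hHR : H ∈ R := ⟨h, rfl⟩
  -- low powers
  have hlow : ∀ l ≤ m, H ^ m * x ^ l ∈ R := by
    intro l hl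
    have h1 : H ^ m * x ^ l = H ^ (m - l) * (H * x) ^ l := by
      rw [mul_pow, ← mul_assoc, ← _root_.pow_add, Nat.sub_add_cancel hl]
    rw [h1, hx]
    have hGR : coeffMap (algebraMap O k) g ∈ R := ⟨g, rfl⟩
    exact Subring.mul_mem _ (Subring.pow_mem _ hHR _) (Subring.pow_mem _ hGR _)
  refine mem_range_coeffMap_of_forall_pow hO (d := H ^ m) (pow_ne_zero _ hh) fun i => ?_
  -- reduce `X ^ i` modulo `p`
  have hdiv := Polynomial.modByMonic_add_div (X ^ i : R[X]) p
  have hev : x ^ i = Polynomial.eval₂ (algebraMap R (LaurentSeries k)) x ((X ^ i : R[X]) %ₘ p) := by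
    have h2 := congrArg (Polynomial.eval₂ (algebraMap R (LaurentSeries k)) x) hdiv
    rw [Polynomial.eval₂_add, Polynomial.eval₂_mul, hpx, zero_mul, add_zero,
      Polynomial.eval₂_pow, Polynomial.eval₂_X] at h2
    exact h2.symm
  have hdeg : ((X ^ i : R[X]) %ₘ p).natDegree < m ∨ m = 0 := by
    by_cases hm0 : m = 0
    · exact Or.inr hm0
    · left
      have hp1 : p ≠ 1 := by
        rintro rfl
        exact hm0 (by rw [hm, Polynomial.natDegree_one])
      exact Polynomial.natDegree_modByMonic_lt _ hp hp1
  rcases hdeg with hdeg | hm0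
  · rw [hev, Polynomial.eval₂_eq_sum_range' _ hdeg, Finset.mul_sum]
    refine Subring.sum_mem _ fun l hl => ?_
    rw [Finset.mem_range] at hl
    have h3 : H ^ m * (algebraMap R (LaurentSeries k) (((X ^ i : R[X]) %ₘ p).coeff l) * x ^ l) =
        algebraMap R (LaurentSeries k) (((X ^ i : R[X]) %ₘ p).coeff l) * (H ^ m * x ^ l) := by ring
    rw [h3]
    exact Subring.mul_mem _ (Subtype.mem _) (hlow l hl.le)
  · -- `p = 1`: the ring is trivial, impossible
    exfalso
    have hp1 : p = 1 := by
      have := Polynomial.eq_C_of_natDegree_eq_zero (hm ▸ hm0 : p.natDegree = 0)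
      rw [this]
      have hlc : p.coeff 0 = 1 := by
        have := hp.coeff_natDegree
        rwa [← hm, hm0] at this
      rw [hlc, map_one]
    rw [hp1, Polynomial.eval₂_one] at hpx
    exact one_ne_zero hpx

/-- a discrete valuation ring is completely integrally closed in its fraction field -/
theorem isCIC_of_isDiscreteValuationRing [IsDomain O] [IsDiscreteValuationRing O]
    [IsFractionRing O k] : IsCIC O k := by
  intro c d hd h
  have hinj : Function.Injective (algebraMap O k) := IsFractionRing.injective O k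
  rcases ValuationRing.isInteger_or_isInteger O c with hc | hc
  · exact hc
  · obtain ⟨a, ha⟩ := hc
    by_cases hc0 : c = 0
    · rw [hc0]; exact zero_mem _
    have ha0 : a ≠ 0 := by
      rintro rfl
      rw [map_zero] at ha
      exact hc0 (inv_eq_zero.mp ha.symm)
    by_cases hau : IsUnit a
    · obtain ⟨u, rfl⟩ := hau
      refine ⟨((u⁻¹ : Oˣ) : O), ?_⟩
      have h1 : algebraMap O k ((u⁻¹ : Oˣ) : O) * algebraMap O k (u : O) = 1 := by
        rw [← map_mul, Units.inv_mul, map_one]
      rw [ha] at h1
      exact (eq_inv_of_mul_eq_one_left h1).trans (inv_inv c)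
    · exfalso
      have ham : a ∈ IsLocalRing.maximalIdeal O := (IsLocalRing.mem_maximalIdeal a).mpr hau
      have hdmem : ∀ i : ℕ, d ∈ (IsLocalRing.maximalIdeal O) ^ i := by
        intro i
        obtain ⟨e, he⟩ := h i
        have h2 : d = e * a ^ i := by
          apply hinj
          rw [map_mul, map_pow, ha, he, inv_pow, mul_assoc, mul_inv_cancel₀ (pow_ne_zero _ hc0),
            mul_one]
        rw [h2]
        exact Ideal.mul_mem_left _ _ (Ideal.pow_mem_pow ham i)
      have hbot : (⨅ i : ℕ, (IsLocalRing.maximalIdeal O) ^ i) = ⊥ :=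
        Ideal.iInf_pow_eq_bot_of_isLocalRing _ (IsLocalRing.maximalIdeal.isMaximal O).ne_top
      have hd0 : d ∈ (⊥ : Ideal O) := by
        rw [← hbot]
        exact Ideal.mem_iInf.mpr hdmem
      exact hd (by rw [Ideal.mem_bot.mp hd0, map_zero])

end Fermat.Agent.GJ.GaussDeg
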