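/-
GATE-J / J1-AUX  AUX-GAUSS(DEG), file 3 (helper28): polynomial independence / polynomial span of
families of Laurent series, and their behaviour under extension of the field of constants.

* `PolyIndep R J x` : `∑ pᵢ(J) xᵢ = 0` with `pᵢ ∈ R[X]` forces all `pᵢ = 0`
  (for a field `R = K` this is linear independence over `K(J)`, `J` transcendental).
* `PolySpan R J b x` : `s(J) x = ∑ pᵢ(J) bᵢ` for some `s, pᵢ ∈ R[X]` with `s(J) ≠ 0`.
* `PolyIndep.baseChange` : independence over `K₀(J₀)` in `K₀((q))` persists over `K(J)` in `K((q))`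
  for ANY field extension `K / K₀` (no finiteness, no algebraicity).
* `polySpan_of_mem_laurentBaseChange` : a polynomial-spanning family of `F₀ ⊆ ℚ((q))` stays
  polynomial-spanning for `laurentBaseChange L F₀`.

Mathlib + Prelude + S28.IntegralDescent (coefficientwise functionals) only.
-/
import Mathlib
import Fermat.Prelude.Def_ModularCurve_LaurentCoeff
import Fermat.Agent.S28.IntegralDescent

set_option autoImplicit false

noncomputable section

namespace Fermat.Agent.GJ.GaussDeg

open Polynomial ModularCurve HahnSeries IntermediateField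
open Fermat.Agent.S28.IntegralDescent

/-! ### Definitions -/

section Defs

variable (R : Type*) {E : Type*} [CommRing R] [CommRing E] [Algebra R E]

/-- polynomial independence of a finite family over `R[J]` -/
def PolyIndep (J : E) {ι : Type*} [Fintype ι] (x : ι → E) : Prop :=
  ∀ p : ι → R[X], ∑ i, aeval J (p i) * x i = 0 → ∀ i, p i = 0

/-- `x` is an `R(J)`-combination of the family `b`, polynomial form -/
def PolySpan (J : E) {ι : Type*} [Fintype ι] (b : ι → E) (x : E) : Prop :=
  ∃ (s : R[X]) (p : ι → R[X]), aeval J s ≠ 0 ∧ aeval J s * x = ∑ i, aeval J (p i) * b i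

end Defs

/-! ### Transport along injective algebra homomorphisms -/

section Transport

variable {R E E' : Type*} [CommRing R] [CommRing E] [CommRing E'] [Algebra R E] [Algebra R E']

theorem polyIndep_map_iff (φ : E →ₐ[R] E') (hφ : Function.Injective φ) (J : E) {ι : Type*}
    [Fintype ι] (x : ι → E) :
    PolyIndep R (φ J) (fun i => φ (x i)) ↔ PolyIndep R J x := by
  have key : ∀ p : ι → R[X], (∑ i, aeval (φ J) (p i) * φ (x i) = 0) ↔
      (∑ i, aeval J (p i) * x i = 0) := by
    intro p
    have : ∑ i, aeval (φ J) (p i) * φ (x i) = φ (∑ i, aeval J (p i) * x i) := by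
      rw [map_sum]
      refine Finset.sum_congr rfl fun i _ => ?_
      rw [map_mul, Polynomial.aeval_algHom_apply]
    rw [this, map_eq_zero_iff φ hφ]
  exact ⟨fun h p hp => h p ((key p).mpr hp), fun h p hp => h p ((key p).mp hp)⟩

theorem polySpan_map_iff (φ : E →ₐ[R] E') (hφ : Function.Injective φ) (J : E) {ι : Type*}
    [Fintype ι] (b : ι → E) (x : E) :
    PolySpan R (φ J) (fun i => φ (b i)) (φ x) ↔ PolySpan R J b x := by
  have key : ∀ (s : R[X]) (p : ι → R[X]),
      (aeval (φ J) s ≠ 0 ∧ aeval (φ J) s * φ x = ∑ i, aeval (φ J) (p i) * φ (b i)) ↔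
      (aeval J s ≠ 0 ∧ aeval J s * x = ∑ i, aeval J (p i) * b i) := by
    intro s p
    have h1 : aeval (φ J) s = φ (aeval J s) := Polynomial.aeval_algHom_apply φ J s
    have h2 : ∑ i, aeval (φ J) (p i) * φ (b i) = φ (∑ i, aeval J (p i) * b i) := by
      rw [map_sum]
      refine Finset.sum_congr rfl fun i _ => ?_
      rw [map_mul, Polynomial.aeval_algHom_apply]
    rw [h1, h2, ← map_mul, hφ.eq_iff, Ne, map_eq_zero_iff φ hφ]
  exact ⟨fun ⟨s, p, h⟩ => ⟨s, p, (key s p).mp h⟩, fun ⟨s, p, h⟩ => ⟨s, p, (key s p).mpr h⟩⟩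

end Transport

/-! ### From a domain to its fraction field -/

section Frac

variable {R K₀ E : Type*} [CommRing R] [IsDomain R] [Field K₀] [Algebra R K₀]
  [IsFractionRing R K₀] [CommRing E] [Algebra R E] [Algebra K₀ E] [IsScalarTower R K₀ E]

/-- polynomial independence over a domain implies polynomial independence over its fraction
field (clear denominators) -/
theorem PolyIndep.of_isFractionRing {J : E} {ι : Type*} [Fintype ι] {x : ι → E}
    (h : PolyIndep R J x) : PolyIndep K₀ J x := by
  classical
  intro p hp i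
  obtain ⟨b, hb⟩ := IsLocalization.exist_integer_multiples (nonZeroDivisors R)
    (Finset.univ.sigma fun i => (p i).support) (fun z : Σ _ : ι, ℕ => (p z.1).coeff z.2)
  have hint : ∀ i n, ((b : R) • (p i).coeff n) ∈ Set.range (algebraMap R K₀) := by
    intro i n
    by_cases hn : n ∈ (p i).support
    · exact hb ⟨i, n⟩ (Finset.mem_sigma.mpr ⟨Finset.mem_univ i, hn⟩)
    · rw [Polynomial.notMem_support_iff.mp hn, smul_zero]
      exact ⟨0, map_zero _⟩
  have hlift : ∀ i, ∃ Q : R[X], Q.map (algebraMap R K₀) = (b : R) • p i := by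
    intro i
    have : (b : R) • p i ∈ Polynomial.lifts (algebraMap R K₀) := by
      rw [Polynomial.lifts_iff_coeff_lifts]
      intro n
      rw [Polynomial.coeff_smul]
      exact hint i n
    exact (Polynomial.mem_lifts _).mp this
  choose Q hQ using hlift
  have h0 : ∑ i, aeval J (Q i) * x i = 0 := by
    have h1 : ∀ i, aeval J (Q i) * x i = (b : R) • (aeval J (p i) * x i) := by
      intro i
      rw [← Polynomial.aeval_map_algebraMap K₀, hQ, ← algebraMap_smul K₀ (b : R) (p i), map_smul,
        smul_mul_assoc, algebraMap_smul]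
    rw [Finset.sum_congr rfl fun i _ => h1 i, ← Finset.smul_sum, hp, smul_zero]
  have h2 := h Q h0 i
  have h3 : (b : R) • p i = 0 := by rw [← hQ, h2, Polynomial.map_zero]
  have hb0 : algebraMap R K₀ (b : R) ≠ 0 := by
    rw [Ne, map_eq_zero_iff _ (IsFractionRing.injective R K₀)]
    exact nonZeroDivisors.coe_ne_zero b
  rw [← algebraMap_smul K₀ (b : R) (p i)] at h3
  exact (smul_eq_zero.mp h3).resolve_left hb0

end Frac

/-! ### Base change of polynomial independence for Laurent series -/

section BaseChange

variable {K₀ K : Type*} [Field K₀] [Field K] [Algebra K₀ K]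

/-- **Independence over `K₀(J₀)` persists over `K(J₀)` for any extension `K / K₀` of the field of
constants.** -/
theorem PolyIndep.baseChange {J₀ : LaurentSeries K₀} {ι : Type*} [Fintype ι]
    {x : ι → LaurentSeries K₀} (h : PolyIndep K₀ J₀ x) :
    PolyIndep K (coeffMap (algebraMap K₀ K) J₀) (fun i => coeffMap (algebraMap K₀ K) (x i)) := by
  intro P hP i
  ext m
  rw [Polynomial.coeff_zero, ← Module.forall_dual_apply_eq_zero_iff K₀]
  intro lam
  have h1 := congrArg (coeffFun lam) hP
  rw [map_sum, map_zero] at h1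
  simp only [coeffFun_mul_coeffMap, coeffFun_aeval] at h1
  have h2 := h (fun i => lamPoly lam (P i)) h1 i
  have h3 := congrArg (fun q : K₀[X] => q.coeff m) h2
  simpa [lamPoly_coeff] using h3

/-- base change of a polynomial span relation -/
theorem PolySpan.baseChange {J₀ : LaurentSeries K₀} {ι : Type*} [Fintype ι]
    {b : ι → LaurentSeries K₀} {x : LaurentSeries K₀} (h : PolySpan K₀ J₀ b x) :
    PolySpan K (coeffMap (algebraMap K₀ K) J₀) (fun i => coeffMap (algebraMap K₀ K) (b i))
      (coeffMap (algebraMap K₀ K) x) := by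
  obtain ⟨s, p, hs, hsp⟩ := h
  refine ⟨s.map (algebraMap K₀ K), fun i => (p i).map (algebraMap K₀ K), ?_, ?_⟩
  · rw [← coeffMap_aeval]
    exact fun h0 => hs (coeffMap_injective (K₀ := K₀) (K := K) (by rw [h0, map_zero]))
  · rw [← coeffMap_aeval, ← map_mul, hsp, map_sum]
    refine Finset.sum_congr rfl fun i _ => ?_
    rw [map_mul, coeffMap_aeval]

end BaseChange

/-! ### Polynomial independence / span versus `K⟮J⟯` -/

section Field

open scoped IntermediateField.algebraAdjoinAdjoin

variable {K E : Type*} [Field K] [Field E] [Algebra K E]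

/-- polynomial independence implies linear independence over `K⟮J⟯` -/
theorem PolyIndep.linearIndependent {J : E} {ι : Type*} [Fintype ι] {x : ι → E}
    (h : PolyIndep K J x) : LinearIndependent K⟮J⟯ x := by
  classical
  rw [← LinearIndependent.iff_fractionRing (R := Algebra.adjoin K {J}) (K := K⟮J⟯),
    Fintype.linearIndependent_iff]
  intro g hg i
  have hmem : ∀ i, ∃ p : K[X], aeval J p = (g i : E) := by
    intro i
    have : (g i : E) ∈ (aeval (R := K) J).range := by
      rw [← Algebra.adjoin_singleton_eq_range_aeval]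
      exact (g i).2
    exact this
  choose p hp using hmem
  have h0 : ∑ i, aeval J (p i) * x i = 0 := by
    rw [← hg]
    refine Finset.sum_congr rfl fun i _ => ?_
    rw [hp i]
    rfl
  have := h p h0 i
  apply Subtype.ext
  rw [← hp i, this, map_zero]
  rfl

/-- a polynomial span relation gives membership in the `K⟮J⟯`-span -/
theorem PolySpan.mem_span {J : E} {ι : Type*} [Fintype ι] {b : ι → E} {x : E}
    (h : PolySpan K J b x) : x ∈ Submodule.span K⟮J⟯ (Set.range b) := by
  obtain ⟨s, p, hs, hsp⟩ := h
  have hmem : ∀ q : K[X], aeval J q ∈ K⟮J⟯ := fun q =>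
    IntermediateField.algebra_adjoin_le_adjoin K _ (Polynomial.aeval_mem_adjoin_singleton K J)
  have hx : x = ∑ i, (⟨aeval J (p i) / aeval J s, div_mem (hmem _) (hmem _)⟩ : K⟮J⟯) • b i := by
    have h1 : x = (aeval J s)⁻¹ * (aeval J s * x) := by
      rw [← mul_assoc, inv_mul_cancel₀ hs, one_mul]
    rw [h1, hsp, Finset.mul_sum]
    refine Finset.sum_congr rfl fun i _ => ?_
    rw [IntermediateField.smul_def, smul_eq_mul]
    show _ = aeval J (p i) / aeval J s * b i
    rw [div_eq_mul_inv]
    ring
  rw [hx]
  exact Submodule.sum_mem _ fun i _ =>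
    Submodule.smul_mem _ _ (Submodule.subset_span (Set.mem_range_self i))

theorem polySpan_zero (J : E) {ι : Type*} [Fintype ι] (b : ι → E) : PolySpan K J b 0 :=
  ⟨1, fun _ => 0, by simp, by simp⟩

theorem polySpan_self (J : E) {ι : Type*} [Fintype ι] (b : ι → E) (i : ι) :
    PolySpan K J b (b i) := by
  classical
  refine ⟨1, fun k => if k = i then 1 else 0, by simp, ?_⟩
  rw [map_one, one_mul, Finset.sum_eq_single i]
  · simp
  · intro k _ hk
    simp [hk]
  · intro h
    exact absurd (Finset.mem_univ i) h

theorem PolySpan.add {J : E} {ι : Type*} [Fintype ι] {b : ι → E} {x y : E}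
    (hx : PolySpan K J b x) (hy : PolySpan K J b y) : PolySpan K J b (x + y) := by
  obtain ⟨s, p, hs, hsp⟩ := hx
  obtain ⟨t, q, ht, htq⟩ := hy
  refine ⟨s * t, fun i => t * p i + s * q i, ?_, ?_⟩
  · rw [map_mul]
    exact mul_ne_zero hs ht
  · have h1 : aeval J (s * t) * (x + y) =
        aeval J t * (aeval J s * x) + aeval J s * (aeval J t * y) := by
      rw [map_mul]; ring
    rw [h1, hsp, htq, Finset.mul_sum, Finset.mul_sum, ← Finset.sum_add_distrib]
    refine Finset.sum_congr rfl fun i _ => ?_
    rw [map_add, map_mul, map_mul]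
    ring

theorem PolySpan.smul_adjoin {J : E} {ι : Type*} [Fintype ι] {b : ι → E} {x : E}
    (a : K⟮J⟯) (hx : PolySpan K J b x) : PolySpan K J b (a • x) := by
  obtain ⟨s, p, hs, hsp⟩ := hx
  obtain ⟨r, t, hrt⟩ := (IntermediateField.mem_adjoin_simple_iff K (a : E)).mp a.2
  by_cases ht : aeval J t = 0
  · have ha : (a : E) = 0 := by rw [hrt, ht, div_zero]
    rw [IntermediateField.smul_def, ha, zero_smul]
    exact polySpan_zero J b
  · refine ⟨t * s, fun i => r * p i, ?_, ?_⟩
    · rw [map_mul]
      exact mul_ne_zero ht hs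
    · have h1 : aeval J (t * s) * (a • x) = aeval J r * (aeval J s * x) := by
        rw [IntermediateField.smul_def, smul_eq_mul, hrt, map_mul]
        field_simp
      rw [h1, hsp, Finset.mul_sum]
      refine Finset.sum_congr rfl fun i _ => ?_
      rw [map_mul]
      ring

/-- membership in the `K⟮J⟯`-span gives a polynomial span relation -/
theorem polySpan_of_mem_span {J : E} {ι : Type*} [Fintype ι] {b : ι → E} {x : E}
    (hx : x ∈ Submodule.span K⟮J⟯ (Set.range b)) : PolySpan K J b x := by
  induction hx using Submodule.span_induction with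
  | mem y hy =>
    obtain ⟨i, rfl⟩ := hy
    exact polySpan_self J b i
  | zero => exact polySpan_zero J b
  | add y z _ _ hy hz => exact hy.add hz
  | smul a y _ hy => exact hy.smul_adjoin a

/-- the degree from a polynomially independent, polynomially spanning family -/
theorem finrank_eq_card_of_polyIndep_of_polySpan {J : E} {ι : Type*} [Fintype ι] {b : ι → E}
    (hi : PolyIndep K J b) (hs : ∀ x : E, PolySpan K J b x) :
    Module.finrank K⟮J⟯ E = Fintype.card ι := by
  have hspan : ⊤ ≤ Submodule.span K⟮J⟯ (Set.range b) := fun x _ => (hs x).mem_span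
  exact Module.finrank_eq_card_basis (Module.Basis.mk hi.linearIndependent hspan)

end Field

/-! ### Spanning families and the base change of function fields -/

section Closure

variable (L : Type*) [Field L] [Algebra ℚ L]
variable {F₀ : IntermediateField ℚ (LaurentSeries ℚ)} {ι : Type*} [Fintype ι]
  {b : ι → LaurentSeries ℚ} {J₀ : LaurentSeries ℚ}

/-- **A polynomially spanning family of `F₀` stays polynomially spanning for the base change
`laurentBaseChange L F₀`.** -/
theorem polySpan_of_mem_laurentBaseChange (hb : ∀ i, b i ∈ F₀)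
    (hspan : ∀ x ∈ F₀, PolySpan ℚ J₀ b x) {X : LaurentSeries L}
    (hX : X ∈ laurentBaseChange L F₀) :
    PolySpan L (coeffEmb L J₀) (fun i => coeffEmb L (b i)) X := by
  set J : LaurentSeries L := coeffEmb L J₀ with hJ
  set B : ι → LaurentSeries L := fun i => coeffEmb L (b i) with hB
  set W : Submodule L⟮J⟯ (LaurentSeries L) := Submodule.span L⟮J⟯ (Set.range B) with hW
  -- generators
  have hgen : ∀ x ∈ F₀, coeffEmb L x ∈ W := fun x hx =>
    ((hspan x hx).baseChange (K := L)).mem_span
  have h1 : (1 : LaurentSeries L) ∈ W := by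
    have := hgen 1 (one_mem F₀)
    rwa [map_one] at this
  -- multiplicative closure
  have hmulB : ∀ i, ∀ Y ∈ W, B i * Y ∈ W := by
    intro i Y hY
    induction hY using Submodule.span_induction with
    | mem y hy =>
      obtain ⟨k, rfl⟩ := hy
      have := hgen (b i * b k) (mul_mem (hb i) (hb k))
      rwa [map_mul] at this
    | zero => rw [mul_zero]; exact zero_mem _
    | add y z _ _ hy hz => rw [mul_add]; exact add_mem hy hz
    | smul a y _ hy => rw [mul_smul_comm]; exact Submodule.smul_mem _ _ hy
  have hmul : ∀ X Y, X ∈ W → Y ∈ W → X * Y ∈ W := by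
    intro X Y hX hY
    induction hX using Submodule.span_induction with
    | mem y hy =>
      obtain ⟨i, rfl⟩ := hy
      exact hmulB i Y hY
    | zero => rw [zero_mul]; exact zero_mem _
    | add y z _ _ hy hz => rw [add_mul]; exact add_mem hy hz
    | smul a y _ hy => rw [smul_mul_assoc]; exact Submodule.smul_mem _ _ hy
  set Wa : Subalgebra L⟮J⟯ (LaurentSeries L) := W.toSubalgebra h1 hmul with hWa
  have hfg : Wa.toSubmodule.FG := by
    have : Wa.toSubmodule = W := Submodule.toSubalgebra_toSubmodule W h1 hmul
    rw [this]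
    exact Submodule.fg_span (Set.finite_range B)
  have hinv : ∀ Y ∈ W, Y⁻¹ ∈ W := by
    intro Y hY
    have hint : IsIntegral L⟮J⟯ Y := IsIntegral.of_mem_of_fg Wa hfg Y hY
    exact Subalgebra.inv_mem_of_algebraic (A := Wa) (x := ⟨Y, hY⟩) hint.isAlgebraic
  -- closure induction
  have hmem : X ∈ W := by
    rw [mem_laurentBaseChange_iff] at hX
    induction hX using Subfield.closure_induction with
    | mem y hy =>
      rcases hy with ⟨a, rfl⟩ | ⟨z, hz, rfl⟩
      · have h2 : algebraMap L (LaurentSeries L) a =
            (algebraMap L L⟮J⟯ a) • (1 : LaurentSeries L) := by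
          rw [IntermediateField.smul_def, smul_eq_mul, mul_one]
          rfl
        rw [h2]
        exact Submodule.smul_mem _ _ h1
      · exact hgen z hz
    | one => exact h1
    | add x y _ _ hx hy => exact add_mem hx hy
    | neg x _ hx => exact neg_mem hx
    | inv x _ hx => exact hinv x hx
    | mul x y _ _ hx hy => exact hmul x y hx hy
  exact polySpan_of_mem_span hmem

end Closure

end Fermat.Agent.GJ.GaussDeg
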