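/-
GATE-J / J1-AUX  AUX-GAUSS(DEG), file 2 (helper28): DEGREE PRESERVATION at the level `(ℚ, ℤ_(ℓ), 𝔽_ℓ)`.

* `ker_fin` : the kernel of the reduction of `chartAlgFin N ℓ` is `(ℓ)`, UNCONDITIONALLY for `ℓ ∤ N`
  (frozen S28 black box);
* `exists_intSeries` : every element of the chart has an honest `ℤ_(ℓ)`-integral `q`-expansion whose
  coefficientwise reduction is `chartRed`;
* `finiteDimensional_frac` : `F_N` is finite over `Frac ℤ_(ℓ)[j]` (from T24 M9 by base change);
* `exists_basis_rat` : there are `ℤ_(ℓ)`-integral series `y₁ … yₙ`, `q`-expansions of elements of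
  the chart, which form a `ℚ(j)`-basis of `F_N` (polynomial form) and whose reductions are
  linearly independent over `𝔽_ℓ(j̃)` (polynomial form).  [abstract core: helper33's `DegCore`]
-/
import Fermat.Agent.S28.FinalGlue
import Fermat.Agent.S28.DatumInst
import Fermat.Agent.S28.CuspCore
import Fermat.Agent.S24_helper62.CuspEmb
import Fermat.Agent.GJ.AuxLevel.DegCore
import Fermat.Agent.GJ.J1.Gauss.DegPresCIC
import Fermat.Agent.GJ.J1.Gauss.DegPresPoly

set_option autoImplicit false
set_option linter.unusedSectionVars false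

noncomputable section

namespace Fermat.Agent.GJ.GaussDeg

open ModularCurve ModularCurve.IgusaScheme HahnSeries GaloisRep Fermat.Agent.S28
  Fermat.Agent.S28.ChartReduction Fermat.Agent.S28.ChartSeries Polynomial

variable (N : ℕ) [NeZero N] (ℓ : ℕ) [Fact ℓ.Prime]

/-! ### The black box and honest integral expansions -/

set_option maxHeartbeats 4000000 in
set_option synthInstance.maxHeartbeats 400000 in
/-- **Kernel of the reduction of the finite chart** (frozen S28 black box), unconditional. -/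
theorem ker_fin (hℓN : ¬ ℓ ∣ N) (x : ↥(chartAlgFin N ℓ))
    (hx : chartRed N ℓ (sFin_subset N) x = 0) :
    ∃ y : ↥(chartAlgFin N ℓ),
      x = algebraMap ↥(ratLocalizedAt ℓ) ↥(chartAlgFin N ℓ) (ℓ : ↥(ratLocalizedAt ℓ)) * y := by
  have hirr := irreducible_ell_cycO N ℓ hℓN
  have hFin : ChartReduction.CoreFin N ↥(cycK N) ↥(cycO N ℓ) ((ℓ : ℕ) : ↥(cycO N ℓ)) :=
    FinalGlue.coreAt_of_div' hirr fun x hx hint hred =>
      CuspDatum.coreFin (cycDatum N ℓ hℓN) hirr x hx hint hred
  have hInf : ChartReduction.CoreInf N ↥(cycK N) ↥(cycO N ℓ) ((ℓ : ℕ) : ↥(cycO N ℓ)) :=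
    FinalGlue.coreAt_of_div' hirr fun x hx hint hred =>
      CuspDatum.coreInf (cycDatum N ℓ hℓN) hirr x hx hint hred
  exact (FinalGlue.chartInput_cyc N ℓ hFin hInf).ker_fin x hx

/-- every element of the finite chart has an honest `ℤ_(ℓ)`-integral `q`-expansion, and `chartRed`
is its coefficientwise reduction -/
theorem exists_intSeries (x : ↥(chartAlgFin N ℓ)) :
    ∃ y : LaurentSeries ↥(ratLocalizedAt ℓ),
      coeffMap (algebraMap ↥(ratLocalizedAt ℓ) ℚ) y =
        ((x : ↥(modularFunctionFieldFull N)) : LaurentSeries ℚ) ∧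
      coeffMap (IsLocalRing.residue ↥(ratLocalizedAt ℓ)) y = chartRed N ℓ (sFin_subset N) x := by
  obtain ⟨h, g, hh, hxgh⟩ := coe_mem_fracIntField N ℓ (x : ↥(modularFunctionFieldFull N))
  have hint := isIntegral_intSeries_of_mem_chartAlg N ℓ (sFin_subset N) x.2
  have hmem : ((x : ↥(modularFunctionFieldFull N)) : LaurentSeries ℚ) ∈
      (coeffMap (algebraMap ↥(ratLocalizedAt ℓ) ℚ)).range :=
    mem_range_coeffMap_of_isIntegral isCIC_of_isDiscreteValuationRing
      (coeffMap_ne_zero ↥(ratLocalizedAt ℓ) ℚ hh) hxgh hint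
  obtain ⟨y, hy⟩ := hmem
  refine ⟨y, hy, ?_⟩
  rw [chartRed_apply]
  have h1 := gaussRed_serEmb (O := ↥(ratLocalizedAt ℓ)) (k := ℚ) y
  refine Eq.trans h1.symm ?_
  congr 1
  exact Subtype.ext hy

/-- `chartRed` is the coefficientwise reduction of ANY integral expansion -/
theorem chartRed_eq_of_coeffMap_eq (x : ↥(chartAlgFin N ℓ)) (y : LaurentSeries ↥(ratLocalizedAt ℓ))
    (hy : coeffMap (algebraMap ↥(ratLocalizedAt ℓ) ℚ) y =
      ((x : ↥(modularFunctionFieldFull N)) : LaurentSeries ℚ)) :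
    chartRed N ℓ (sFin_subset N) x = coeffMap (IsLocalRing.residue ↥(ratLocalizedAt ℓ)) y := by
  obtain ⟨y', hy', hred⟩ := exists_intSeries N ℓ x
  have : y = y' := coeffMap_algebraMap_injective ↥(ratLocalizedAt ℓ) ℚ (hy.trans hy'.symm)
  rw [this, hred]

/-! ### `F_N` as an algebra over `ℤ_(ℓ)[X]`, `X ↦ j` -/

/-- the `q`-expansion of a polynomial in `j` with `ℤ_(ℓ)`-coefficients -/
theorem coe_aeval_jFull (p : (↥(ratLocalizedAt ℓ))[X]) :
    ((aeval (jFull N) p : ↥(modularFunctionFieldFull N)) : LaurentSeries ℚ) =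
      aeval jq (p.map (algebraMap ↥(ratLocalizedAt ℓ) ℚ)) := by
  induction p using Polynomial.induction_on with
  | C a =>
    rw [aeval_C, Polynomial.map_C, aeval_C, coe_algebraMap_eq, PolyDescent.algebraMap_eq_C]
  | add p q hp hq =>
    rw [map_add, IntermediateField.coe_add, hp, hq, Polynomial.map_add, map_add]
  | monomial n a h =>
    rw [map_mul, aeval_C, map_pow, aeval_X, Polynomial.map_mul, Polynomial.map_C,
      Polynomial.map_pow, Polynomial.map_X, map_mul, aeval_C, map_pow, aeval_X,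
      IntermediateField.coe_mul, IntermediateField.coe_pow, coe_algebraMap_eq, coe_jFull,
      PolyDescent.algebraMap_eq_C]

instance isScalarTower_laurent : @IsScalarTower ↥(ratLocalizedAt ℓ) ℚ (LaurentSeries ℚ)
    Algebra.toSMul Algebra.toSMul Algebra.toSMul :=
  IsScalarTower.of_algebraMap_eq (R := ↥(ratLocalizedAt ℓ)) (S := ℚ) (A := LaurentSeries ℚ)
    fun r => by
      rw [DescentLemma.algebraMap_laurentSeries_apply r, PolyDescent.algebraMap_eq_C]

/-- the same, with `aeval` over `ℤ_(ℓ)` on the right -/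
theorem coe_aeval_jFull' (p : (↥(ratLocalizedAt ℓ))[X]) :
    ((aeval (jFull N) p : ↥(modularFunctionFieldFull N)) : LaurentSeries ℚ) = aeval jq p := by
  rw [coe_aeval_jFull, Polynomial.aeval_map_algebraMap]

theorem transcendental_jFull : Transcendental ↥(ratLocalizedAt ℓ) (jFull N) := by
  rw [transcendental_iff]
  intro p hp
  have h1 := coe_aeval_jFull N ℓ p
  rw [hp, IntermediateField.coe_zero] at h1
  have h2 := (transcendental_iff.mp DescentLemma.transcendental_jq) _ h1.symm
  exact (Polynomial.map_eq_zero_iff (FaithfulSMul.algebraMap_injective _ ℚ)).mp h2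

/-- `F_N` as an algebra over `ℤ_(ℓ)[X]`, `X ↦ j` -/
@[reducible] def polyAlgebra :
    Algebra (↥(ratLocalizedAt ℓ))[X] ↥(modularFunctionFieldFull N) :=
  ((aeval (jFull N) : (↥(ratLocalizedAt ℓ))[X] →ₐ[↥(ratLocalizedAt ℓ)]
    ↥(modularFunctionFieldFull N)) :
      (↥(ratLocalizedAt ℓ))[X] →+* ↥(modularFunctionFieldFull N)).toAlgebra

attribute [local instance] polyAlgebra

theorem algebraMap_poly (p : (↥(ratLocalizedAt ℓ))[X]) :
    algebraMap (↥(ratLocalizedAt ℓ))[X] ↥(modularFunctionFieldFull N) p = aeval (jFull N) p := rfl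

instance faithful_poly : FaithfulSMul (↥(ratLocalizedAt ℓ))[X] ↥(modularFunctionFieldFull N) :=
  (faithfulSMul_iff_algebraMap_injective _ _).mpr
    (transcendental_iff_injective.mp (transcendental_jFull N ℓ))

theorem isIntegral_poly_iff (w : ↥(modularFunctionFieldFull N)) :
    IsIntegral (↥(ratLocalizedAt ℓ))[X] w ↔ w ∈ chartAlgFin N ℓ :=
  (DescentLemma.isIntegral_adjoin_singleton_iff (jFull N) w).symm

attribute [local instance] FractionRing.liftAlgebra

/-! ### From linear independence over `Frac ℤ_(ℓ)[X]` to polynomial independence -/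

/-- linear independence over the fraction field of `ℤ_(ℓ)[j]` gives polynomial independence of
the `q`-expansions over `ℤ_(ℓ)` -/
theorem polyIndep_int_of_linearIndependent {ι : Type*} [Fintype ι]
    (x : ι → ↥(modularFunctionFieldFull N))
    (h : LinearIndependent (FractionRing (↥(ratLocalizedAt ℓ))[X]) x) :
    PolyIndep ↥(ratLocalizedAt ℓ) jq (fun i => ((x i : ↥(modularFunctionFieldFull N)) :
      LaurentSeries ℚ)) := by
  classical
  intro p hp
  have h1 : LinearIndependent (↥(ratLocalizedAt ℓ))[X] x :=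
    (LinearIndependent.iff_fractionRing (↥(ratLocalizedAt ℓ))[X]
      (FractionRing (↥(ratLocalizedAt ℓ))[X])).mpr h
  rw [Fintype.linearIndependent_iff] at h1
  refine h1 p ?_
  apply Subtype.val_injective
  rw [IntermediateField.coe_zero, ← hp]
  show ((∑ i, p i • x i : ↥(modularFunctionFieldFull N)) : LaurentSeries ℚ) = _
  rw [IntermediateField.coe_sum]
  refine Finset.sum_congr rfl fun i _ => ?_
  rw [Algebra.smul_def, algebraMap_poly, IntermediateField.coe_mul, coe_aeval_jFull']

/-- … and over `ℚ` -/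
theorem polyIndep_rat_of_linearIndependent {ι : Type*} [Fintype ι]
    (x : ι → ↥(modularFunctionFieldFull N))
    (h : LinearIndependent (FractionRing (↥(ratLocalizedAt ℓ))[X]) x) :
    PolyIndep ℚ jq (fun i => ((x i : ↥(modularFunctionFieldFull N)) : LaurentSeries ℚ)) :=
  PolyIndep.of_isFractionRing (polyIndep_int_of_linearIndependent N ℓ x h)

/-! ### Finiteness of `F_N` over `Frac ℤ_(ℓ)[j]` -/

open Fermat.Agent.S24 Fermat.Agent.S24_helper62 in
/-- a family of `F_N` independent over `Frac ℤ_(ℓ)[j]` has at most `[F_N ⊗ ℚ̄ : ℚ̄(j)]` elements -/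
theorem card_le_of_linearIndependent {ι : Type*} [Fintype ι]
    (x : ι → ↥(modularFunctionFieldFull N))
    (h : LinearIndependent (FractionRing (↥(ratLocalizedAt ℓ))[X]) x) :
    Fintype.card ι ≤ Module.finrank (IntermediateField.adjoin Kbar {jF N}) (FN N) := by
  have h1 := (polyIndep_rat_of_linearIndependent N ℓ x h).baseChange (K := Kbar)
  set x' : ι → FN N := fun i =>
    ⟨coeffEmb Kbar ((x i : ↥(modularFunctionFieldFull N)) : LaurentSeries ℚ),
      coeffEmb_mem_laurentBaseChange Kbar (x i).2⟩ with hx'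
  have h2 : PolyIndep Kbar (jF N) x' := by
    rw [← polyIndep_map_iff (modularFunctionFieldBar N).val Subtype.val_injective]
    have hj : (modularFunctionFieldBar N).val (jF N) = coeffMap (algebraMap ℚ Kbar) jq :=
      coe_jF N
    rw [hj]
    exact h1
  have : FiniteDimensional (IntermediateField.adjoin Kbar {jF N}) (FN N) := (m9 N).2.1
  exact h2.linearIndependent.fintype_card_le_finrank

open Fermat.Agent.S24 Fermat.Agent.S24_helper62 in
/-- **`F_N` is finite over the fraction field of `ℤ_(ℓ)[j]`.** -/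
instance finiteDimensional_frac :
    FiniteDimensional (FractionRing (↥(ratLocalizedAt ℓ))[X]) ↥(modularFunctionFieldFull N) := by
  have hrank : Module.rank (FractionRing (↥(ratLocalizedAt ℓ))[X]) ↥(modularFunctionFieldFull N) ≤
      (Module.finrank (IntermediateField.adjoin Kbar {jF N}) (FN N) : ℕ) := by
    refine rank_le fun s hs => ?_
    have := card_le_of_linearIndependent N ℓ (fun i : s => (i : ↥(modularFunctionFieldFull N))) hs
    simpa using this
  exact Module.rank_lt_aleph0_iff.mp (lt_of_le_of_lt hrank Cardinal.natCast_lt_aleph0)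

include N in
theorem charZero_frac : CharZero (FractionRing (↥(ratLocalizedAt ℓ))[X]) :=
  (algebraMap (FractionRing (↥(ratLocalizedAt ℓ))[X]) ↥(modularFunctionFieldFull N)).charZero

/-! ### The abstract core applied to `(ℤ_(ℓ)[X], F_N, chartRed)` -/

/-- the integral closure of `ℤ_(ℓ)[X]` in `F_N` is the finite chart -/
def icToChart : ↥(integralClosure (↥(ratLocalizedAt ℓ))[X] ↥(modularFunctionFieldFull N)) →+*
    ↥(chartAlgFin N ℓ) where
  toFun x := ⟨x.1, (isIntegral_poly_iff N ℓ x.1).mp x.2⟩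
  map_one' := rfl
  map_mul' _ _ := rfl
  map_zero' := rfl
  map_add' _ _ := rfl

theorem coe_icToChart
    (x : ↥(integralClosure (↥(ratLocalizedAt ℓ))[X] ↥(modularFunctionFieldFull N))) :
    ((icToChart N ℓ x : ↥(chartAlgFin N ℓ)) : ↥(modularFunctionFieldFull N)) = x.1 := rfl

/-- the reduction on the integral closure of `ℤ_(ℓ)[X]` -/
def redIC : ↥(integralClosure (↥(ratLocalizedAt ℓ))[X] ↥(modularFunctionFieldFull N)) →+*
    LaurentSeries (IsLocalRing.ResidueField ↥(ratLocalizedAt ℓ)) :=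
  (chartRed N ℓ (sFin_subset N)).comp (icToChart N ℓ)

theorem redIC_ker (hℓN : ¬ ℓ ∣ N)
    (x : ↥(integralClosure (↥(ratLocalizedAt ℓ))[X] ↥(modularFunctionFieldFull N)))
    (hx : redIC N ℓ x = 0) :
    ∃ y : ↥(integralClosure (↥(ratLocalizedAt ℓ))[X] ↥(modularFunctionFieldFull N)),
      x = algebraMap (↥(ratLocalizedAt ℓ))[X]
        ↥(integralClosure (↥(ratLocalizedAt ℓ))[X] ↥(modularFunctionFieldFull N))
        (C (ℓ : ↥(ratLocalizedAt ℓ))) * y := by
  obtain ⟨y, hy⟩ := ker_fin N ℓ hℓN (icToChart N ℓ x) hx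
  refine ⟨⟨y.1, (isIntegral_poly_iff N ℓ y.1).mpr y.2⟩, Subtype.ext ?_⟩
  have h1 := congrArg (fun z : ↥(chartAlgFin N ℓ) => (z : ↥(modularFunctionFieldFull N))) hy
  simp only [coe_icToChart, Subalgebra.coe_mul, Subalgebra.coe_algebraMap] at h1
  rw [h1]
  show _ = algebraMap (↥(ratLocalizedAt ℓ))[X] ↥(modularFunctionFieldFull N)
    (C (ℓ : ↥(ratLocalizedAt ℓ))) * (y : ↥(modularFunctionFieldFull N))
  rw [algebraMap_poly, aeval_C]

theorem prime_C_ell : Prime (C (ℓ : ↥(ratLocalizedAt ℓ)) : (↥(ratLocalizedAt ℓ))[X]) :=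
  Polynomial.prime_C_iff.mpr (irreducible_ell ℓ).prime

/-- the reduction of `j` is `j̃` -/
theorem chartRed_aeval (P : (↥(ratLocalizedAt ℓ))[X])
    (hP : aeval (jFull N) P ∈ chartAlgFin N ℓ) :
    chartRed N ℓ (sFin_subset N) ⟨aeval (jFull N) P, hP⟩ =
      aeval (jqModC (IsLocalRing.ResidueField ↥(ratLocalizedAt ℓ)))
        (P.map (IsLocalRing.residue ↥(ratLocalizedAt ℓ))) := by
  rw [chartRed_eq_of_coeffMap_eq N ℓ _ (aeval (jqModC ↥(ratLocalizedAt ℓ)) P)]
  · rw [PolyDescent.coeffMap_aeval, coeffMap_jqModC]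
  · show _ = ((aeval (jFull N) P : ↥(modularFunctionFieldFull N)) : LaurentSeries ℚ)
    rw [coe_aeval_jFull, PolyDescent.coeffMap_aeval, coeffMap_jqModC, jqModC_rat]

/-! ### Degree preservation over `(ℚ, ℤ_(ℓ), 𝔽_ℓ)` -/

/-- **Degree preservation, rational level.**  For `ℓ ∤ N` there are `ℤ_(ℓ)`-integral Laurent series
`y₁, …, yₙ`, `q`-expansions of elements of the finite chart `chartAlgFin N ℓ` of `F_N`, such that
* (b) they are polynomially independent over `ℚ[j]`,
* (c) every element of `F_N` is a `ℚ(j)`-combination of them (polynomial form),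
* (d) their reductions mod `ℓ` are polynomially independent over `𝔽_ℓ[j̃]`. -/
theorem exists_basis_rat (hℓN : ¬ ℓ ∣ N) :
    ∃ (n : ℕ) (y : Fin n → LaurentSeries ↥(ratLocalizedAt ℓ)),
      (∀ i, ∃ x : ↥(chartAlgFin N ℓ), coeffMap (algebraMap ↥(ratLocalizedAt ℓ) ℚ) (y i) =
        ((x : ↥(modularFunctionFieldFull N)) : LaurentSeries ℚ)) ∧
      PolyIndep ℚ jq (fun i => coeffMap (algebraMap ↥(ratLocalizedAt ℓ) ℚ) (y i)) ∧
      (∀ x : LaurentSeries ℚ, x ∈ modularFunctionFieldFull N →
        PolySpan ℚ jq (fun i => coeffMap (algebraMap ↥(ratLocalizedAt ℓ) ℚ) (y i)) x) ∧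
      PolyIndep (IsLocalRing.ResidueField ↥(ratLocalizedAt ℓ))
        (jqModC (IsLocalRing.ResidueField ↥(ratLocalizedAt ℓ)))
        (fun i => coeffMap (IsLocalRing.residue ↥(ratLocalizedAt ℓ)) (y i)) := by
  classical
  have := charZero_frac N ℓ
  have hfin : ∀ c : (↥(ratLocalizedAt ℓ))[X], c ≠ 0 →
      FiniteMultiplicity (C (ℓ : ↥(ratLocalizedAt ℓ))) c := fun c hc =>
    FiniteMultiplicity.of_not_isUnit (prime_C_ell ℓ).not_isUnit hc
  obtain ⟨b, hli, hred⟩ := AuxLevel.Deg.exists_redIndep_basis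
    (K := FractionRing (↥(ratLocalizedAt ℓ))[X]) (C (ℓ : ↥(ratLocalizedAt ℓ))) (prime_C_ell ℓ)
    hfin (redIC N ℓ) (redIC_ker N ℓ hℓN)
  -- the integral expansions
  choose y hy hyred using fun i => exists_intSeries N ℓ (icToChart N ℓ (b i))
  have hycoe : ∀ i, coeffMap (algebraMap ↥(ratLocalizedAt ℓ) ℚ) (y i) =
      (((b i : ↥(modularFunctionFieldFull N))) : LaurentSeries ℚ) := hy
  refine ⟨_, y, fun i => ⟨icToChart N ℓ (b i), hy i⟩, ?_, ?_, ?_⟩
  · -- (b)
    have h1 := polyIndep_rat_of_linearIndependent N ℓ _ hli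
    simpa only [hycoe] using h1
  · -- (c)
    intro x hx
    set xF : ↥(modularFunctionFieldFull N) := ⟨x, hx⟩ with hxF
    have htop := hli.span_eq_top_of_card_eq_finrank' (by simp)
    let bas := Module.Basis.mk hli htop.ge
    have hrepr : xF = ∑ i, bas.repr xF i • (b i : ↥(modularFunctionFieldFull N)) := by
      conv_lhs => rw [← bas.sum_repr xF]
      refine Finset.sum_congr rfl fun i _ => ?_
      rw [Module.Basis.mk_apply]
    obtain ⟨s, hs⟩ := IsLocalization.exist_integer_multiples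
      (nonZeroDivisors (↥(ratLocalizedAt ℓ))[X]) Finset.univ (fun i => bas.repr xF i)
    choose c hc using fun i => hs i (Finset.mem_univ i)
    have hs0 : (s : (↥(ratLocalizedAt ℓ))[X]) ≠ 0 := nonZeroDivisors.coe_ne_zero s
    have hrel : aeval (jFull N) (s : (↥(ratLocalizedAt ℓ))[X]) * xF =
        ∑ i, aeval (jFull N) (c i) * (b i : ↥(modularFunctionFieldFull N)) := by
      have h2 : (s : (↥(ratLocalizedAt ℓ))[X]) • xF =
          ∑ i, (c i) • (b i : ↥(modularFunctionFieldFull N)) := by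
        conv_lhs => rw [hrepr, Finset.smul_sum]
        refine Finset.sum_congr rfl fun i _ => ?_
        rw [← algebraMap_smul (FractionRing (↥(ratLocalizedAt ℓ))[X]) (c i), hc i, smul_assoc]
      simpa only [Algebra.smul_def, algebraMap_poly] using h2
    refine ⟨(s : (↥(ratLocalizedAt ℓ))[X]).map (algebraMap ↥(ratLocalizedAt ℓ) ℚ),
      fun i => (c i).map (algebraMap ↥(ratLocalizedAt ℓ) ℚ), ?_, ?_⟩
    · intro h0
      have h3 := (transcendental_iff.mp DescentLemma.transcendental_jq) _ h0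
      exact hs0 ((Polynomial.map_eq_zero_iff (FaithfulSMul.algebraMap_injective _ ℚ)).mp h3)
    · have h4 := congrArg (fun z : ↥(modularFunctionFieldFull N) => (z : LaurentSeries ℚ)) hrel
      simp only [IntermediateField.coe_mul, IntermediateField.coe_sum, coe_aeval_jFull] at h4
      simpa only [hycoe] using h4
  · -- (d)
    intro p hp i
    have hsurj : Function.Surjective (IsLocalRing.residue ↥(ratLocalizedAt ℓ)) :=
      IsLocalRing.residue_surjective
    choose P hP using fun i => Polynomial.map_surjective _ hsurj (p i)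
    have hmem : ∀ i, aeval (jFull N) (P i) ∈ chartAlgFin N ℓ := fun i =>
      (isIntegral_poly_iff N ℓ _).mp (by
        rw [← algebraMap_poly]; exact isIntegral_algebraMap)
    have hsum : ∑ i, redIC N ℓ (algebraMap (↥(ratLocalizedAt ℓ))[X]
        ↥(integralClosure (↥(ratLocalizedAt ℓ))[X] ↥(modularFunctionFieldFull N)) (P i)) *
        redIC N ℓ (b i) = 0 := by
      rw [← hp]
      refine Finset.sum_congr rfl fun i _ => ?_
      have h5 : redIC N ℓ (algebraMap (↥(ratLocalizedAt ℓ))[X]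
          ↥(integralClosure (↥(ratLocalizedAt ℓ))[X] ↥(modularFunctionFieldFull N)) (P i)) =
          chartRed N ℓ (sFin_subset N) ⟨aeval (jFull N) (P i), hmem i⟩ := rfl
      rw [h5, chartRed_aeval, hP i]
      congr 1
      exact (hyred i).symm
    obtain ⟨Q, hQ⟩ := hred P hsum i
    rw [← hP i, hQ, Polynomial.map_mul, Polynomial.map_C,
      (IsLocalRing.residue_eq_zero_iff _).mpr, map_zero, zero_mul]
    rw [maximalIdeal_ratLocalizedAt]
    exact Ideal.mem_span_singleton_self _

end Fermat.Agent.GJ.GaussDeg
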