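/-
GATE-J / J1-AUX  AUX-GAUSS(DEG), file 4 (helper28): DEGREE PRESERVATION at the level `(L, A, k)`.

`L` a field of characteristic `0`, `A` a valuation subring of `L` lying over `ℓ ∤ N`, `π : A →+* k`
a ring hom into a field killing `ℓ`.  There are `ℤ_(ℓ)`-integral series `y₁ … yₙ` (expansions of
elements of the chart `chartAlgFin N ℓ`) such that, with `z i := coeffMap (ℤ_(ℓ) → A) (y i)`:
* the `coeffMap A.subtype (z i)` lie in `F_L = laurentBaseChange L (modularFunctionFieldFull N)`,
  are polynomially independent over `L[j]` and polynomially span `F_L` (so `n = [F_L : L(j)]`);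
* the reductions `coeffMap π (z i)` are polynomially independent over `k[j̃]`, hence linearly
  independent over `k(j̃)`.
-/
import Fermat.Agent.S05.Inertia
import Fermat.Agent.GJ.J1.Gauss.DegPresRat

set_option autoImplicit false
set_option linter.unusedSectionVars false

noncomputable section

namespace Fermat.Agent.GJ.GaussDeg

open ModularCurve ModularCurve.IgusaScheme HahnSeries GaloisRep Polynomial IntermediateField

/-! ### `ℤ_(ℓ) → A` -/

section ToA

variable {L : Type*} [Field L] [Algebra ℚ L] (A : ValuationSubring L) {ℓ : ℕ} [Fact ℓ.Prime]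

theorem algebraMap_rat_mem (hA : A.LiesOverPrime ℓ) (r : ↥(ratLocalizedAt ℓ)) :
    algebraMap ℚ L (r : ℚ) ∈ A := by
  have hcop : (r : ℚ).den.Coprime ℓ := r.2
  have hndvd : ¬ ((ℓ : ℤ) ∣ ((r : ℚ).den : ℤ)) := by
    intro h
    have h1 : ℓ ∣ (r : ℚ).den := by exact_mod_cast h
    have h2 : ℓ ∣ Nat.gcd (r : ℚ).den ℓ := Nat.dvd_gcd h1 dvd_rfl
    rw [hcop] at h2
    exact (Fact.out : ℓ.Prime).one_lt.ne' (Nat.dvd_one.mp h2)
  have hmem : (((r : ℚ).den : ℤ) : L) ∈ A := Fermat.Agent.S05.intCast_mem_valuationSubring A _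
  have hnon : (((r : ℚ).den : ℤ) : L) ∉ A.nonunits := by
    rw [Fermat.Agent.S05.intCast_mem_nonunits_iff (Fact.out : ℓ.Prime) hA]
    exact hndvd
  have hv : A.valuation (((r : ℚ).den : ℤ) : L) = 1 := by
    apply le_antisymm ((A.valuation_le_one_iff _).mpr hmem)
    by_contra hlt
    exact hnon ((A.mem_nonunits_iff).mpr (not_le.mp hlt))
  have hinv : ((((r : ℚ).den : ℤ) : L))⁻¹ ∈ A := by
    rw [← A.valuation_le_one_iff, map_inv₀, hv, inv_one]
  have hr : algebraMap ℚ L (r : ℚ) = (((r : ℚ).num : ℤ) : L) * ((((r : ℚ).den : ℤ) : L))⁻¹ := by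
    conv_lhs => rw [← Rat.num_div_den (r : ℚ)]
    rw [map_div₀, div_eq_mul_inv]
    simp
  rw [hr]
  exact A.mul_mem _ _ (Fermat.Agent.S05.intCast_mem_valuationSubring A _) hinv

/-- the inclusion `ℤ_(ℓ) → A` for a valuation subring lying over `ℓ` -/
def ratLocToA (hA : A.LiesOverPrime ℓ) : ↥(ratLocalizedAt ℓ) →+* ↥A :=
  ((algebraMap ℚ L).comp (ratLocalizedAt ℓ).subtype).codRestrict A.toSubring
    (algebraMap_rat_mem A hA)

theorem coe_ratLocToA (hA : A.LiesOverPrime ℓ) (r : ↥(ratLocalizedAt ℓ)) :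
    ((ratLocToA A hA r : ↥A) : L) = algebraMap ℚ L (r : ℚ) := rfl

theorem subtype_comp_ratLocToA (hA : A.LiesOverPrime ℓ) :
    A.subtype.comp (ratLocToA A hA) =
      (algebraMap ℚ L).comp (algebraMap ↥(ratLocalizedAt ℓ) ℚ) := rfl

theorem ratLocToA_ell (hA : A.LiesOverPrime ℓ) :
    ratLocToA A hA (ℓ : ↥(ratLocalizedAt ℓ)) = (ℓ : ↥A) := map_natCast _ _

/-- the series over `L` attached to a `ℤ_(ℓ)`-integral series -/
theorem coeffMap_subtype_ratLocToA (hA : A.LiesOverPrime ℓ)
    (y : LaurentSeries ↥(ratLocalizedAt ℓ)) :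
    coeffMap A.subtype (coeffMap (ratLocToA A hA) y) =
      coeffEmb L (coeffMap (algebraMap ↥(ratLocalizedAt ℓ) ℚ) y) := by
  rw [coeffMap_coeffMap, coeffEmb, coeffMap_coeffMap, subtype_comp_ratLocToA]

end ToA

/-! ### The export -/

section Export

variable (N : ℕ) [NeZero N] (ℓ : ℕ) [Fact ℓ.Prime]
variable {L : Type*} [Field L] [Algebra ℚ L] (A : ValuationSubring L)
variable {k : Type*} [Field k] (π : ↥A →+* k)

theorem jqModC_eq_coeffEmb : jqModC L = coeffEmb L jq := by
  rw [coeffEmb, ← jqModC_rat, coeffMap_jqModC]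

theorem jqModC_mem_laurentBaseChange :
    jqModC L ∈ laurentBaseChange L (modularFunctionFieldFull N) := by
  rw [jqModC_eq_coeffEmb]
  exact coeffEmb_mem_laurentBaseChange L (jFull N).2

/-- **Degree preservation at the level `(L, A, k)`.** -/
theorem exists_basis (hℓN : ¬ ℓ ∣ N) (hA : A.LiesOverPrime ℓ) (hπ : π (ℓ : ↥A) = 0) :
    ∃ (n : ℕ) (y : Fin n → LaurentSeries ↥(ratLocalizedAt ℓ)) (z : Fin n → LaurentSeries ↥A),
      (∀ i, ∃ x : ↥(chartAlgFin N ℓ), coeffMap (algebraMap ↥(ratLocalizedAt ℓ) ℚ) (y i) =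
        ((x : ↥(modularFunctionFieldFull N)) : LaurentSeries ℚ)) ∧
      (∀ i, z i = coeffMap (ratLocToA A hA) (y i)) ∧
      (∀ i, coeffMap A.subtype (z i) ∈ laurentBaseChange L (modularFunctionFieldFull N)) ∧
      PolyIndep L (jqModC L) (fun i => coeffMap A.subtype (z i)) ∧
      (∀ X : LaurentSeries L, X ∈ laurentBaseChange L (modularFunctionFieldFull N) →
        PolySpan L (jqModC L) (fun i => coeffMap A.subtype (z i)) X) ∧
      PolyIndep k (jqModC k) (fun i => coeffMap π (z i)) := by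
  obtain ⟨n, y, ha, hb, hc, hd⟩ := exists_basis_rat N ℓ hℓN
  refine ⟨n, y, fun i => coeffMap (ratLocToA A hA) (y i), ha, fun _ => rfl, ?_, ?_, ?_, ?_⟩
  · intro i
    rw [coeffMap_subtype_ratLocToA]
    obtain ⟨x, hx⟩ := ha i
    rw [hx]
    exact coeffEmb_mem_laurentBaseChange L x.1.2
  · have h1 := hb.baseChange (K := L)
    rw [jqModC_eq_coeffEmb]
    simp only [coeffMap_subtype_ratLocToA]
    exact h1
  · intro X hX
    have hmem : ∀ i, coeffMap (algebraMap ↥(ratLocalizedAt ℓ) ℚ) (y i) ∈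
        modularFunctionFieldFull N := by
      intro i
      obtain ⟨x, hx⟩ := ha i
      rw [hx]
      exact x.1.2
    have h1 := polySpan_of_mem_laurentBaseChange L hmem hc hX
    rw [jqModC_eq_coeffEmb]
    simp only [coeffMap_subtype_ratLocToA]
    exact h1
  · -- the residue field of `ℤ_(ℓ)` maps to `k`
    have hloc : IsLocalHom (π.comp (ratLocToA A hA)) := by
      refine ⟨fun a ha => ?_⟩
      by_contra hnu
      have hmem : a ∈ IsLocalRing.maximalIdeal ↥(ratLocalizedAt ℓ) :=
        (IsLocalRing.mem_maximalIdeal a).mpr hnu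
      rw [Fermat.Agent.S28.maximalIdeal_ratLocalizedAt, Ideal.mem_span_singleton] at hmem
      obtain ⟨c, rfl⟩ := hmem
      rw [RingHom.comp_apply, map_mul, ratLocToA_ell, map_mul, hπ, zero_mul] at ha
      exact not_isUnit_zero ha
    let ψ : IsLocalRing.ResidueField ↥(ratLocalizedAt ℓ) →+* k :=
      IsLocalRing.ResidueField.lift (π.comp (ratLocToA A hA))
    have hψ : ψ.comp (IsLocalRing.residue ↥(ratLocalizedAt ℓ)) = π.comp (ratLocToA A hA) :=
      IsLocalRing.ResidueField.lift_comp_residue _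
    let _ : Algebra (IsLocalRing.ResidueField ↥(ratLocalizedAt ℓ)) k := ψ.toAlgebra
    have h1 := hd.baseChange (K := k)
    have h2 : coeffMap (algebraMap (IsLocalRing.ResidueField ↥(ratLocalizedAt ℓ)) k)
        (jqModC (IsLocalRing.ResidueField ↥(ratLocalizedAt ℓ))) = jqModC k := coeffMap_jqModC _
    rw [h2] at h1
    have h3 : ∀ i, coeffMap (algebraMap (IsLocalRing.ResidueField ↥(ratLocalizedAt ℓ)) k)
        (coeffMap (IsLocalRing.residue ↥(ratLocalizedAt ℓ)) (y i)) =
        coeffMap π (coeffMap (ratLocToA A hA) (y i)) := by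
      intro i
      rw [coeffMap_coeffMap, coeffMap_coeffMap]
      exact coeffMap_congr hψ (y i)
    simpa only [h3] using h1

/-- `j` as an element of `F_L` -/
def jBar : ↥(laurentBaseChange L (modularFunctionFieldFull N)) :=
  ⟨jqModC L, jqModC_mem_laurentBaseChange N⟩

/-- **Degree preservation at the level `(L, A, k)`, field form.**  `n = [F_L : L(j)]`, the `z i` are
`A`-integral series lying in `F_L`, forming an `L(j)`-basis of `F_L`, and their reductions are
linearly independent over `k(j̃)` inside `k((q))`. -/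
theorem exists_basis_field (hℓN : ¬ ℓ ∣ N) (hA : A.LiesOverPrime ℓ) (hπ : π (ℓ : ↥A) = 0) :
    ∃ (n : ℕ) (y : Fin n → LaurentSeries ↥(ratLocalizedAt ℓ)) (z : Fin n → LaurentSeries ↥A)
      (hz : ∀ i, coeffMap A.subtype (z i) ∈ laurentBaseChange L (modularFunctionFieldFull N)),
      (∀ i, ∃ x : ↥(chartAlgFin N ℓ), coeffMap (algebraMap ↥(ratLocalizedAt ℓ) ℚ) (y i) =
        ((x : ↥(modularFunctionFieldFull N)) : LaurentSeries ℚ)) ∧
      (∀ i, z i = coeffMap (ratLocToA A hA) (y i)) ∧
      Module.finrank L⟮jBar N (L := L)⟯ ↥(laurentBaseChange L (modularFunctionFieldFull N)) = n ∧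
      LinearIndependent L⟮jBar N (L := L)⟯
        (fun i => (⟨coeffMap A.subtype (z i), hz i⟩ :
          ↥(laurentBaseChange L (modularFunctionFieldFull N)))) ∧
      Submodule.span L⟮jBar N (L := L)⟯ (Set.range fun i => (⟨coeffMap A.subtype (z i), hz i⟩ :
          ↥(laurentBaseChange L (modularFunctionFieldFull N)))) = ⊤ ∧
      PolyIndep k (jqModC k) (fun i => coeffMap π (z i)) ∧
      LinearIndependent k⟮jqModC k⟯ (fun i => coeffMap π (z i)) := by
  obtain ⟨n, y, z, hprov, hzy, hz, hind, hspan, hred⟩ := exists_basis N ℓ A π hℓN hA hπ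
  set FL := laurentBaseChange L (modularFunctionFieldFull N) with hFL
  set zL : Fin n → ↥FL := fun i => ⟨coeffMap A.subtype (z i), hz i⟩ with hzL
  have hindL : PolyIndep L (jBar N (L := L)) zL :=
    (polyIndep_map_iff FL.val Subtype.val_injective (jBar N (L := L)) zL).mp hind
  have hspanL : ∀ X : ↥FL, PolySpan L (jBar N (L := L)) zL X := fun X =>
    (polySpan_map_iff FL.val Subtype.val_injective (jBar N (L := L)) zL X).mp (hspan X.1 X.2)
  refine ⟨n, y, z, hz, hprov, hzy, ?_, hindL.linearIndependent, ?_, hred, hred.linearIndependent⟩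
  · rw [finrank_eq_card_of_polyIndep_of_polySpan hindL hspanL, Fintype.card_fin]
  · exact top_le_iff.mp fun X _ => (hspanL X).mem_span

end Export

/-! ### The degree is `ψ(N)` -/

section Psi

open Fermat.Agent.S24 Fermat.Agent.S24_helper62

variable (N : ℕ) [NeZero N] (ℓ : ℕ) [Fact ℓ.Prime]

/-- over `L = ℚ̄` the number `n` of `exists_basis_field` is `ψ(N)` -/
theorem finrank_jBar_eq_psi :
    Module.finrank (AlgebraicClosure ℚ)⟮jBar N (L := AlgebraicClosure ℚ)⟯
      ↥(laurentBaseChange (AlgebraicClosure ℚ) (modularFunctionFieldFull N)) = dedekindPsi N := by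
  have h : jBar N (L := AlgebraicClosure ℚ) = jF N := by
    apply Subtype.ext
    rw [coe_jF]
    exact jqModC_eq_coeffEmb
  rw [h]
  exact (m9 N).2.2

end Psi

end Fermat.Agent.GJ.GaussDeg
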