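/-
GATE-J / J1-AUX (C3) (helper28): **M-DEG at `j` in the concrete `RedData` shape.**

For `ℓ ∤ N` and a valuation subring `A` of `ℚ̄` lying over `ℓ` (residue field `k`):

  `[ℚ̄(X₀(N)) : ℚ̄(j)] ≤ [FresBar N A : k(j~)]`

where `FresBar N A` is the residue field of helper45's Gauss valuation and `j~ = red j`.  This is the
hypothesis `hdeg` of `RedData.orth_of_finrank_le` (helper90), `RedData.huniq_of_finrank_le`
(helper18), `DegChart.finrank_le_two/three` (helper83) and of the Kummer layer (helper30), at the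
chart `t = j`.

Proof: `exists_basis_field` (`DegPres.lean`: an `ℚ̄(j)`-basis of `A`-integral series with
`k(j~)`-independent reductions) + helper33's counting lemma `card_le_finrank_Fres`.
-/
import Fermat.Agent.GJ.J1.Gauss.DegPres
import Fermat.Agent.GJ.AuxLevel.DegFinal
import Fermat.Agent.GJ.J1.Haupt.ChartRed

set_option autoImplicit false

noncomputable section

namespace Fermat.Agent.GJ.GaussDeg

open ModularCurve IntermediateField Fermat.Agent.S24 Fermat.Agent.S24_helper62
  Fermat.Agent.GJ.J1 Fermat.Agent.GJ.J1.Val Fermat.Agent.GJ.J1.Haupt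

variable (N : ℕ) [NeZero N] {ℓ : ℕ} [Fact ℓ.Prime] (A : ValuationSubring (AlgebraicClosure ℚ))

/-- the residue map kills `ℓ` when `A` lies over `ℓ` -/
theorem residue_prime_eq_zero {L : Type*} [Field L] (B : ValuationSubring L) {q : ℕ}
    (hB : B.LiesOverPrime q) : IsLocalRing.residue ↥B ((q : ℕ) : ↥B) = 0 := by
  have h0 : (((q : ℕ) : ↥B) : L) ∈ B.nonunits := by
    have : (((q : ℕ) : ↥B) : L) = (q : L) := by simp
    rw [this]; exact hB
  rw [ValuationSubring.mem_nonunits_iff_exists_mem_maximalIdeal] at h0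
  obtain ⟨hmem, hmax⟩ := h0
  exact (IsLocalRing.residue_eq_zero_iff _).mpr hmax

/-- `jBar N` over `ℚ̄` is `jF N` -/
theorem jBar_eq_jF : jBar N (L := AlgebraicClosure ℚ) = jF N := by
  apply Subtype.ext
  rw [coe_jF]
  exact jqModC_eq_coeffEmb

omit [NeZero N] in
/-- the chart `emb A (jqModC A)` lies in the function field -/
theorem emb_jqModC_mem : emb A (jqModC A) ∈ modularFunctionFieldBar N := by
  have := emb_gen_mem N A (one_dvd N)
  rwa [qExpand_one_apply] at this

/-- **(C3) M-DEG at `j`, integral-chart form**: with the chart written as `⟨emb A (jqModC A), _⟩`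
(the shape of `Val.isGaussChart_j`). -/
theorem finrank_embj_le (hℓN : ¬ ℓ ∣ N) (hA : A.LiesOverPrime ℓ) :
    Module.finrank
        (AlgebraicClosure ℚ)⟮(⟨emb A (jqModC A), emb_jqModC_mem N A⟩ : modularFunctionFieldBar N)⟯
        (modularFunctionFieldBar N) ≤
      Module.finrank
        (IsLocalRing.ResidueField A)⟮(redDataBar N A).red
          ⟨⟨emb A (jqModC A), emb_jqModC_mem N A⟩,
            int_mem_Rw (hGF := hasGaussFrac_bar N A) (emb_jqModC_mem N A)⟩⟯
        (FresBar N A) := by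
  obtain ⟨n, y, z, hz, -, -, hfin, -, -, -, hli⟩ :=
    exists_basis_field (L := AlgebraicClosure ℚ) (k := IsLocalRing.ResidueField A) N ℓ A
      (IsLocalRing.residue ↥A) hℓN hA (residue_prime_eq_zero A hA)
  have hj : (⟨emb A (jqModC A), emb_jqModC_mem N A⟩ : modularFunctionFieldBar N) = jF N :=
    (jF_eq_emb N A).symm
  have hfd : FiniteDimensional
      (AlgebraicClosure ℚ)⟮(⟨emb A (jqModC A), emb_jqModC_mem N A⟩ : modularFunctionFieldBar N)⟯
      (modularFunctionFieldBar N) := by
    rw [hj]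
    exact (m9 N).2.1
  have hfin' : Module.finrank
      (AlgebraicClosure ℚ)⟮(⟨emb A (jqModC A), emb_jqModC_mem N A⟩ : modularFunctionFieldBar N)⟯
      (modularFunctionFieldBar N) = n := by
    rw [hj, ← jBar_eq_jF N]
    exact hfin
  have htr : Transcendental (IsLocalRing.ResidueField A) (rd A (jqModC A)) := by
    rw [rd, coeffMap_jqModC]
    exact Val.transcendental_jqModC _
  have hli' : LinearIndependent (IsLocalRing.ResidueField A)⟮rd A (jqModC A)⟯
      (fun i => rd A (z i)) := by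
    rw [rd, coeffMap_jqModC]
    exact hli
  rw [hfin']
  exact Fermat.Agent.GJ.AuxLevel.Deg.card_le_finrank_Fres A (modularFunctionFieldBar N)
    (hasGaussFrac_bar N A) (emb_jqModC_mem N A) htr z hz hli'

/-- **(C3) M-DEG at `j`** in the concrete `RedData` shape:
`[ℚ̄(X₀(N)) : ℚ̄(j)] ≤ [FresBar N A : k(red j)]` for `ℓ ∤ N`, `A` over `ℓ`. -/
theorem finrank_jF_le (hℓN : ¬ ℓ ∣ N) (hA : A.LiesOverPrime ℓ) :
    Module.finrank (AlgebraicClosure ℚ)⟮jF N⟯ (modularFunctionFieldBar N) ≤
      Module.finrank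
        (IsLocalRing.ResidueField A)⟮(redDataBar N A).red ⟨jF N, jF_mem_Rw N A⟩⟯
        (FresBar N A) := by
  have h := finrank_embj_le N A hℓN hA
  have hj : (⟨emb A (jqModC A), emb_jqModC_mem N A⟩ : modularFunctionFieldBar N) = jF N :=
    (jF_eq_emb N A).symm
  have h1 : (⟨⟨emb A (jqModC A), emb_jqModC_mem N A⟩,
      int_mem_Rw (hGF := hasGaussFrac_bar N A) (emb_jqModC_mem N A)⟩ : (redDataBar N A).Rw) =
      ⟨jF N, jF_mem_Rw N A⟩ := Subtype.ext hj
  rw [h1, hj] at h
  exact h

/-- the degree of `ℚ̄(X₀(N))` over `ℚ̄(j)` is `ψ(N)`, so the special fibre has degree `≥ ψ(N)`. -/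
theorem dedekindPsi_le_finrank_Fres (hℓN : ¬ ℓ ∣ N) (hA : A.LiesOverPrime ℓ) :
    dedekindPsi N ≤
      Module.finrank
        (IsLocalRing.ResidueField A)⟮(redDataBar N A).red ⟨jF N, jF_mem_Rw N A⟩⟯
        (FresBar N A) := by
  have h := finrank_jF_le N A hℓN hA
  rwa [(m9 N).2.2] at h

end Fermat.Agent.GJ.GaussDeg
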