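/-
GATE-J / J1-AUX (C3) consumers (helper28): the ready-made instantiations of degree preservation
at `j` (`finrank_jF_le`, `DegAtJ.lean`) for the concrete reduction datum `R := redDataBar N A`
(`ℓ ∤ N`, `A` a valuation subring of `ℚ̄` over `ℓ`, `k` its residue field):

* `finrank_jF_eq`        : `[F_N : ℚ̄(j)] = [Fres : k(j~)] = ψ(N)`, `Fres / k(j~)` finite;
* `orth_redDataBar`      : `AbsCore.Orth R.A R.Rw` (helper90, (H-d) of the abstract core);
* `huniq_jF`             : `IntRed.Huniq R ℚ̄⟮j⟯` (helper18);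
* `redRegFin_jF`, `redRegFin_of_le` : G4 (ii) at `j` and at every Gauss chart `t'` with
  `ℚ̄(j) ≤ ℚ̄(t')`;
* `finrank_tTwoF_le`, `finrank_tThreeF_le` : the degree inequality at the Hauptmodul charts of
  level 2, 3 (helper83's transfer), with `Orth`-free by-products `huniq_tTwoF`, `huniq_tThreeF`.
-/
import Fermat.Agent.GJ.J1.Gauss.DegAtJ
import Fermat.Agent.GJ.Lattice.OrthoDegree
import Fermat.Agent.GJ.J1.HuniqDegree
import Fermat.Agent.GJ.AuxLevel.DegChart

set_option autoImplicit false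

noncomputable section

namespace Fermat.Agent.GJ.GaussDeg

open ModularCurve IntermediateField Fermat.Agent.S24 Fermat.Agent.S24_helper62
  Fermat.Agent.GJ.J1 Fermat.Agent.GJ.J1.Val Fermat.Agent.GJ.J1.Haupt

variable (N : ℕ) [NeZero N] {ℓ : ℕ} [Fact ℓ.Prime] (A : ValuationSubring (AlgebraicClosure ℚ))

/-- finiteness of `F_N / ℚ̄(j)` as an instance-shaped lemma -/
theorem finiteDimensional_jF :
    FiniteDimensional (AlgebraicClosure ℚ)⟮jF N⟯ (modularFunctionFieldBar N) := (m9 N).2.1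

/-- degree preservation at `j` is an equality, and the special fibre is finite over `k(j~)` -/
theorem finrank_jF_eq (hℓN : ¬ ℓ ∣ N) (hA : A.LiesOverPrime ℓ) :
    FiniteDimensional
        (IsLocalRing.ResidueField A)⟮(redDataBar N A).red ⟨jF N, jF_mem_Rw N A⟩⟯ (FresBar N A) ∧
      Module.finrank (AlgebraicClosure ℚ)⟮jF N⟯ (modularFunctionFieldBar N) =
        Module.finrank
          (IsLocalRing.ResidueField A)⟮(redDataBar N A).red ⟨jF N, jF_mem_Rw N A⟩⟯
          (FresBar N A) :=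
  have := finiteDimensional_jF N
  Fermat.Agent.GJ.Aux.DegChart.finrank_eq_of_le (redDataBar N A) (isGaussChart_jF N A)
    (finrank_jF_le N A hℓN hA)

/-- the degree of the special fibre over `k(j~)` is `ψ(N)` -/
theorem finrank_Fres_eq_psi (hℓN : ¬ ℓ ∣ N) (hA : A.LiesOverPrime ℓ) :
    Module.finrank
        (IsLocalRing.ResidueField A)⟮(redDataBar N A).red ⟨jF N, jF_mem_Rw N A⟩⟯
        (FresBar N A) = dedekindPsi N := by
  rw [← (finrank_jF_eq N A hℓN hA).2]
  exact (m9 N).2.2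

/-- (H-d) orthogonality of the abstract core for `redDataBar N A` (helper90). -/
theorem orth_redDataBar (hℓN : ¬ ℓ ∣ N) (hA : A.LiesOverPrime ℓ) :
    AbsCore.Orth (redDataBar N A).A (redDataBar N A).Rw :=
  have := finiteDimensional_jF N
  RedData.orth_of_finrank_le (redDataBar N A) (jF N) (jF_mem_Rw N A) (isGaussChart_jF N A).2
    (finrank_jF_le N A hℓN hA)

/-- `Huniq` at `j` (helper18). -/
theorem huniq_jF (hℓN : ¬ ℓ ∣ N) (hA : A.LiesOverPrime ℓ) :
    IntRed.Huniq (redDataBar N A) (AlgebraicClosure ℚ)⟮jF N⟯ :=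
  have := finiteDimensional_jF N
  RedData.huniq_of_finrank_le (redDataBar N A) (jF N) (jF_mem_Rw N A) (isGaussChart_jF N A).2
    (finrank_jF_le N A hℓN hA)

/-- G4 (ii) at `j`. -/
theorem redRegFin_jF (hℓN : ¬ ℓ ∣ N) (hA : A.LiesOverPrime ℓ) :
    (redDataBar N A).RedRegFin (jF N) :=
  have := finiteDimensional_jF N
  RedData.redRegFin_of_finrank_le (redDataBar N A) (jF N) (jF_mem_Rw N A)
    (isGaussChart_jF N A).2 (finrank_jF_le N A hℓN hA)

/-- G4 (ii) at every Gauss chart above `j`. -/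
theorem redRegFin_of_le (hℓN : ¬ ℓ ∣ N) (hA : A.LiesOverPrime ℓ)
    {t' : modularFunctionFieldBar N} (ht' : (redDataBar N A).IsGaussChart t')
    (hle : (AlgebraicClosure ℚ)⟮jF N⟯ ≤ (AlgebraicClosure ℚ)⟮t'⟯) :
    (redDataBar N A).RedRegFin t' :=
  have := finiteDimensional_jF N
  RedData.redRegFin_of_finrank_le_of_le (redDataBar N A) (jF N) (jF_mem_Rw N A)
    (isGaussChart_jF N A).2 (finrank_jF_le N A hℓN hA) ht' hle

/-! ### the Hauptmodul charts -/

/-- the residue field of `A` over `ℓ` has characteristic `ℓ` -/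
theorem charP_residue (hA : A.LiesOverPrime ℓ) : CharP (IsLocalRing.ResidueField A) ℓ := by
  have hℓ : ℓ.Prime := Fact.out
  have h1 := residue_prime_eq_zero A hA
  rw [map_natCast] at h1
  have h2 := CharP.ringChar_of_prime_eq_zero hℓ h1
  have h3 : CharP (IsLocalRing.ResidueField A) (ringChar (IsLocalRing.ResidueField A)) :=
    ringChar.charP _
  rwa [h2] at h3

/-- `2 ≠ 0` in the residue field for `ℓ ≠ 2` -/
theorem two_ne_zero_residue (hA : A.LiesOverPrime ℓ) (h2 : ℓ ≠ 2) :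
    (2 : IsLocalRing.ResidueField A) ≠ 0 := by
  have hℓ : ℓ.Prime := Fact.out
  have : CharP (IsLocalRing.ResidueField A) ℓ := charP_residue A hA
  intro h
  have h1 : ((2 : ℕ) : IsLocalRing.ResidueField A) = 0 := by exact_mod_cast h
  rw [CharP.cast_eq_zero_iff (IsLocalRing.ResidueField A) ℓ] at h1
  exact h2 ((Nat.prime_dvd_prime_iff_eq hℓ Nat.prime_two).mp h1)

/-- `3 ≠ 0` in the residue field for `ℓ ≠ 3` -/
theorem three_ne_zero_residue (hA : A.LiesOverPrime ℓ) (h3 : ℓ ≠ 3) :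
    (3 : IsLocalRing.ResidueField A) ≠ 0 := by
  have hℓ : ℓ.Prime := Fact.out
  have : CharP (IsLocalRing.ResidueField A) ℓ := charP_residue A hA
  intro h
  have h1 : ((3 : ℕ) : IsLocalRing.ResidueField A) = 0 := by exact_mod_cast h
  rw [CharP.cast_eq_zero_iff (IsLocalRing.ResidueField A) ℓ] at h1
  exact h3 ((Nat.prime_dvd_prime_iff_eq hℓ Nat.prime_three).mp h1)

/-- **M-DEG at `t₂`** (level 2, `ℓ ∤ N` so `ℓ ≠ 2`). -/
theorem finrank_tTwoF_le (hℓN : ¬ ℓ ∣ N) (hA : A.LiesOverPrime ℓ) (h : 2 ∣ N) :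
    Module.finrank (AlgebraicClosure ℚ)⟮tTwoF N h⟯ (modularFunctionFieldBar N) ≤
      Module.finrank
        (IsLocalRing.ResidueField A)⟮(redDataBar N A).red ⟨tTwoF N h, tTwoF_mem_Rw N A h⟩⟯
        (FresBar N A) := by
  have hℓ2 : ℓ ≠ 2 := fun h0 => hℓN (h0 ▸ h)
  have := finiteDimensional_jF N
  exact Fermat.Agent.GJ.Aux.DegChart.finrank_le_two (redDataBar N A)
    (two_ne_zero_residue A hA hℓ2) (isGaussChart_jF N A) (tTwoF_mem_Rw N A h)
    (jF_mul_tTwoF_sq N h) (finrank_jF_le N A hℓN hA)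

/-- **M-DEG at `t₃`** (level 3, `ℓ ∤ N` so `ℓ ≠ 3`). -/
theorem finrank_tThreeF_le (hℓN : ¬ ℓ ∣ N) (hA : A.LiesOverPrime ℓ) (h : 3 ∣ N) :
    Module.finrank (AlgebraicClosure ℚ)⟮tThreeF N h⟯ (modularFunctionFieldBar N) ≤
      Module.finrank
        (IsLocalRing.ResidueField A)⟮(redDataBar N A).red ⟨tThreeF N h, tThreeF_mem_Rw N A h⟩⟯
        (FresBar N A) := by
  have hℓ3 : ℓ ≠ 3 := fun h0 => hℓN (h0 ▸ h)
  have := finiteDimensional_jF N
  exact Fermat.Agent.GJ.Aux.DegChart.finrank_le_three (redDataBar N A)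
    (three_ne_zero_residue A hA hℓ3) (isGaussChart_jF N A) (tThreeF_mem_Rw N A h)
    (jF_mul_tThreeF_cube N h) (finrank_jF_le N A hℓN hA)

end Fermat.Agent.GJ.GaussDeg
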