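import Fermat.Agent.GJ.J1.Gauss.HuniqBar
import Fermat.Agent.GJ.J1.Haupt.Inst
import Fermat.Agent.GJ.AuxLevel.DegreeT24

/-!
# GATE-J / J1 / M-GAUSS, final instances: `RedRegFin t ∧ RedRegFin t⁻¹` for the three charts

`R := Val.redDataBar M A`, `A` above `ℓ ∤ M`.

* `redRegFin_jF`     : `t = jF M`;
* `redRegFin_tTwoF`  : `t = tTwoF M h`, `2 ∣ M`;
* `redRegFin_tThreeF`: `t = tThreeF M h`, `3 ∣ M`;
* `isGaussChart_tTwoF`, `isGaussChart_tThreeF`, `huniq_tTwoF`, `huniq_tThreeF`.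
-/

set_option autoImplicit false
set_option linter.unusedSectionVars false

noncomputable section

namespace Fermat.Agent.GJ.Gauss

open Polynomial IntermediateField ModularCurve Fermat.Agent.GJ.J1 Fermat.Agent.GJ.J1.Val
open Fermat.Agent.S24 Fermat.Agent.GJ.J1.Haupt Fermat.Agent.GJ.Aux.Degree

variable (M : ℕ) [NeZero M] {ℓ : ℕ} [Fact ℓ.Prime] (hℓM : ¬ ℓ ∣ M)
variable (A : ValuationSubring Kbar) (hA : A.LiesOverPrime ℓ)

/-- `t₂` is a Gauss chart -/
theorem isGaussChart_tTwoF (h : 2 ∣ M) : (redDataBar M A).IsGaussChart (tTwoF M h) := by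
  have hmem : emb A (tTwo A) ∈ modularFunctionFieldBar M := by
    rw [emb, coeffMap_subtype_tTwo]
    exact tTwo_mem_bar M h
  have h1 := isGaussChart_of_int (A := A) (F := modularFunctionFieldBar M)
    (hGF := hasGaussFrac_bar M A) hmem (by
      rw [rd, coeffMap_tTwo]
      exact tTwo_transcendental _)
  have e : (⟨emb A (tTwo A), hmem⟩ : modularFunctionFieldBar M) = tTwoF M h :=
    Subtype.ext (coeffMap_subtype_tTwo A)
  rwa [e] at h1

/-- `t₃` is a Gauss chart -/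
theorem isGaussChart_tThreeF (h : 3 ∣ M) : (redDataBar M A).IsGaussChart (tThreeF M h) := by
  have hmem : emb A (tThree A) ∈ modularFunctionFieldBar M := by
    rw [emb, coeffMap_subtype_tThree]
    exact tThree_mem_bar M h
  have h1 := isGaussChart_of_int (A := A) (F := modularFunctionFieldBar M)
    (hGF := hasGaussFrac_bar M A) hmem (by
      rw [rd, coeffMap_tThree]
      exact tThree_transcendental _)
  have e : (⟨emb A (tThree A), hmem⟩ : modularFunctionFieldBar M) = tThreeF M h :=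
    Subtype.ext (coeffMap_subtype_tThree A)
  rwa [e] at h1

include hℓM hA in
theorem huniq_tTwoF (h : 2 ∣ M) : IntRed.Huniq (redDataBar M A) Kbar⟮tTwoF M h⟯ :=
  (huniq_bar M hℓM A hA).mono (adjoin_jF_le_t2 (jF_mul_tTwoF_sq M h))

include hℓM hA in
theorem huniq_tThreeF (h : 3 ∣ M) : IntRed.Huniq (redDataBar M A) Kbar⟮tThreeF M h⟯ :=
  (huniq_bar M hℓM A hA).mono (adjoin_jF_le_t3 (jF_mul_tThreeF_cube M h))

include hℓM hA in
/-- **M-GAUSS for the chart `j`** -/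
theorem redRegFin_jF :
    (redDataBar M A).RedRegFin (jF M) ∧ (redDataBar M A).RedRegFin (jF M)⁻¹ :=
  ⟨redRegFin_bar M hℓM A hA le_rfl (isGaussChart_jF M A),
    redRegFin_bar_inv M hℓM A hA le_rfl (isGaussChart_jF M A)⟩

include hℓM hA in
/-- **M-GAUSS for the chart `t₂`** (`2 ∣ M`, used when `ℓ = 3`) -/
theorem redRegFin_tTwoF (h : 2 ∣ M) :
    (redDataBar M A).RedRegFin (tTwoF M h) ∧ (redDataBar M A).RedRegFin (tTwoF M h)⁻¹ :=
  ⟨redRegFin_bar M hℓM A hA (adjoin_jF_le_t2 (jF_mul_tTwoF_sq M h)) (isGaussChart_tTwoF M A h),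
    redRegFin_bar_inv M hℓM A hA (adjoin_jF_le_t2 (jF_mul_tTwoF_sq M h))
      (isGaussChart_tTwoF M A h)⟩

include hℓM hA in
/-- **M-GAUSS for the chart `t₃`** (`3 ∣ M`, used when `ℓ = 2`) -/
theorem redRegFin_tThreeF (h : 3 ∣ M) :
    (redDataBar M A).RedRegFin (tThreeF M h) ∧ (redDataBar M A).RedRegFin (tThreeF M h)⁻¹ :=
  ⟨redRegFin_bar M hℓM A hA (adjoin_jF_le_t3 (jF_mul_tThreeF_cube M h))
      (isGaussChart_tThreeF M A h),
    redRegFin_bar_inv M hℓM A hA (adjoin_jF_le_t3 (jF_mul_tThreeF_cube M h))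
      (isGaussChart_tThreeF M A h)⟩

end Fermat.Agent.GJ.Gauss
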