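import Mathlib

/-!
# GATE-J / J1 / M-GAUSS: integrality over `R[T]` through bivariate polynomials

`IsIntegral (Algebra.adjoin R {T}) y ↔ ∃ p : R[X][X], p.Monic ∧ biv (algebraMap R B) T y p = 0`,
where `biv c T y` evaluates the inner variable at `T` and the outer one at `y`; and the
functoriality of `biv` under ring homomorphisms.
-/

set_option autoImplicit false

noncomputable section

namespace Fermat.Agent.GJ.Gauss

open Polynomial

section Biv

variable {R B : Type*} [CommRing R] [CommRing B]

/-- evaluation of a bivariate polynomial: coefficients through `c`, inner variable at `T`, outer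
variable at `y` -/
def biv (c : R →+* B) (T y : B) : R[X][X] →+* B :=
  Polynomial.eval₂RingHom (Polynomial.eval₂RingHom c T) y

theorem biv_apply (c : R →+* B) (T y : B) (p : R[X][X]) :
    biv c T y p = Polynomial.eval₂ (Polynomial.eval₂RingHom c T) y p := rfl

@[simp] theorem biv_X (c : R →+* B) (T y : B) : biv c T y X = y := by simp [biv]

@[simp] theorem biv_C_X (c : R →+* B) (T y : B) : biv c T y (C X) = T := by simp [biv]

@[simp] theorem biv_C_C (c : R →+* B) (T y : B) (r : R) : biv c T y (C (C r)) = c r := by
  simp [biv]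

/-- functoriality of `biv` -/
theorem map_biv {R' B' : Type*} [CommRing R'] [CommRing B'] (f : R →+* R') (φ : B →+* B')
    (c : R →+* B) (c' : R' →+* B') (hc : ∀ r, φ (c r) = c' (f r)) (T y : B) (p : R[X][X]) :
    φ (biv c T y p) = biv c' (φ T) (φ y) (p.map (Polynomial.mapRingHom f)) := by
  have h : φ.comp (biv c T y) =
      (biv c' (φ T) (φ y)).comp (Polynomial.mapRingHom (Polynomial.mapRingHom f)) := by
    apply Polynomial.ringHom_ext
    · intro a
      have h2 : (φ.comp (biv c T y)).comp Polynomial.C =
          ((biv c' (φ T) (φ y)).comp (Polynomial.mapRingHom (Polynomial.mapRingHom f))).comp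
            Polynomial.C := by
        apply Polynomial.ringHom_ext
        · intro r
          simp [hc, biv]
        · simp [biv]
      exact congrArg (fun g => g a) h2
    · simp [biv]
  exact congrArg (fun g => g p) h

end Biv

section Integral

variable {R B : Type*} [CommRing R] [CommRing B] [Algebra R B]

/-- the canonical surjection `R[X] → R[T]` -/
def adjHom (T : B) : R[X] →+* Algebra.adjoin R {T} :=
  (Polynomial.aeval (⟨T, Algebra.self_mem_adjoin_singleton R T⟩ : Algebra.adjoin R {T}) :
    R[X] →ₐ[R] Algebra.adjoin R {T}).toRingHom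

theorem algebraMap_comp_adjHom (T : B) :
    (algebraMap (Algebra.adjoin R {T}) B).comp (adjHom T) =
      Polynomial.eval₂RingHom (algebraMap R B) T := by
  apply Polynomial.ringHom_ext
  · intro a
    simp only [adjHom, AlgHom.toRingHom_eq_coe, RingHom.coe_comp, RingHom.coe_coe,
      Function.comp_apply, aeval_C, coe_eval₂RingHom, eval₂_C]
    rfl
  · simp [adjHom]

theorem adjHom_surjective (T : B) : Function.Surjective (adjHom (R := R) T) := by
  rintro ⟨y, hy⟩
  have hy' := hy
  rw [Algebra.adjoin_singleton_eq_range_aeval] at hy'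
  obtain ⟨P, hP⟩ := hy'
  refine ⟨P, Subtype.ext ?_⟩
  have := congrArg (fun f => f P) (algebraMap_comp_adjHom (R := R) T)
  simp only [RingHom.comp_apply] at this
  show ((adjHom T P : Algebra.adjoin R {T}) : B) = y
  have h2 : ((adjHom T P : Algebra.adjoin R {T}) : B) =
      algebraMap (Algebra.adjoin R {T}) B (adjHom T P) := rfl
  rw [h2, this, ← hP]
  rfl

/-- **Integrality over `R[T]` through bivariate polynomials.** -/
theorem isIntegral_adjoin_singleton_iff [Nontrivial B] (T y : B) :
    IsIntegral (Algebra.adjoin R {T}) y ↔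
      ∃ p : R[X][X], p.Monic ∧ biv (algebraMap R B) T y p = 0 := by
  constructor
  · rintro ⟨q, hq, hy⟩
    have hlifts : q ∈ Polynomial.lifts (adjHom (R := R) T) :=
      (Polynomial.lifts_iff_coeff_lifts q).mpr fun i => by
        obtain ⟨a, ha⟩ := adjHom_surjective (R := R) T (q.coeff i)
        exact ⟨a, ha⟩
    obtain ⟨p, hpq, -, hp⟩ := Polynomial.lifts_and_natDegree_eq_and_monic hlifts hq
    refine ⟨p, hp, ?_⟩
    rw [biv_apply, ← algebraMap_comp_adjHom, ← Polynomial.eval₂_map, hpq]
    exact hy
  · rintro ⟨p, hp, hy⟩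
    refine ⟨p.map (adjHom T), hp.map _, ?_⟩
    rw [Polynomial.eval₂_map, algebraMap_comp_adjHom]
    exact hy

end Integral

end Fermat.Agent.GJ.Gauss
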