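import Fermat.Agent.GJ.J1.Gauss.Descent

/-!
# GATE-J / J1 / M-GAUSS, step D: the q-expansion principle over a valuation ring of `ℚ̄`

`L` an algebraic extension of `ℚ` with an embedding `ι : L →+* ℂ` and an element `zL` with
`ι zL = exp(2πi/M)`; `A` a valuation subring of `L` above `ℓ ∤ M`.  For a Laurent series `y` with
coefficients in `A` whose image in `L((q))` lies in the function field of level `M`:

* `coreA_fin`: integral over `L[j]` ⟹ `y` integral over `A[j]` (inside `A((q))`);
* `coreA_inv`: integral over `L[1/j]` ⟹ `y` integral over `A[T]`, `T` any series over `A` mapping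
  to `1/j`.
-/

set_option autoImplicit false
set_option linter.unusedSectionVars false

noncomputable section

namespace Fermat.Agent.GJ.Gauss

open Polynomial ModularCurve Fermat.Agent.S28

section Generic

variable {O k L' : Type} [CommRing O] [Field k] [Algebra O k] [Field L']

/-- integrality over `O[T]` inside `k((q))`, with the `O`-algebra structure on `k((q))` found
from `[Algebra O k]` alone (as in T28; in a concrete context, e.g. `O` a subalgebra of `k`,
instance search may find a syntactically different structure) -/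
def IntOver (O k : Type) [CommRing O] [Field k] [Algebra O k] (T x : LaurentSeries k) : Prop :=
  IsIntegral (Algebra.adjoin O {T}) x

theorem intOver_iff (T x : LaurentSeries k) :
    IntOver O k T x ↔
      ∃ p : O[X][X], p.Monic ∧ biv (algebraMap O (LaurentSeries k)) T x p = 0 :=
  isIntegral_adjoin_singleton_iff T x

theorem algebraMap_laurent_eq_single' (a : O) :
    algebraMap O (LaurentSeries k) a = HahnSeries.single 0 (algebraMap O k a) := by
  rw [HahnSeries.algebraMap_apply']
  have : algebraMap O (PowerSeries k) a = PowerSeries.C (algebraMap O k a) := by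
    rw [IsScalarTower.algebraMap_apply O k (PowerSeries k)]
    rfl
  rw [this, HahnSeries.ofPowerSeries_C]
  rfl

/-- `biv` over `O` inside `k((q))` and extension of the coefficient field -/
theorem coeffMap_biv_generic (g : k →+* L') (T y : LaurentSeries k) (q : O[X][X]) :
    coeffMap g (biv (algebraMap O (LaurentSeries k)) T y q) =
      biv (algebraMap L' (LaurentSeries L')) (coeffMap g T) (coeffMap g y)
        (q.map (Polynomial.mapRingHom (g.comp (algebraMap O k)))) :=
  map_biv (g.comp (algebraMap O k)) (coeffMap g) (algebraMap O (LaurentSeries k))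
    (algebraMap L' (LaurentSeries L'))
    (fun r => by
      rw [algebraMap_laurent_eq_single', coeffMap_single, algebraMap_laurent_eq_single]
      rfl) T y q

end Generic

section CoreA

variable {L : Type} [Field L] [Algebra ℚ L] [Algebra.IsAlgebraic ℚ L]
variable (A : ValuationSubring L) {ℓ : ℕ} [Fact ℓ.Prime]
variable (M : ℕ) [NeZero M]
variable (ι : L →+* ℂ) {zL : L}

/-- `OE → A` -/
def oeToA (E : IntermediateField ℚ L) [NumberField E] : OE A E →+* A where
  toFun x := ⟨((x : E) : L), coe_mem_of_mem_OE A E x.2⟩
  map_one' := by ext; simp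
  map_mul' a b := by ext; simp
  map_zero' := by ext; simp
  map_add' a b := by ext; simp

theorem subtype_comp_oeToA (E : IntermediateField ℚ L) [NumberField E] :
    A.subtype.comp (oeToA A E) = (algebraMap E L).comp (algebraMap (OE A E) E) := rfl

/-- **The generic chart statement.** -/
theorem coreA_generic (hA : A.LiesOverPrime ℓ) (hℓM : ¬ ℓ ∣ M) (hz : ι zL = zetaC M)
    (TL : LaurentSeries L) (TA : LaurentSeries A)
    (hTA : coeffMap A.subtype TA = TL)
    (TE : ∀ E : IntermediateField ℚ L, LaurentSeries E)
    (hTE : ∀ E : IntermediateField ℚ L, coeffMap (algebraMap E L) (TE E) = TL)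
    (hcore : ∀ (E : IntermediateField ℚ L) [NumberField E]
      [IsDiscreteValuationRing (OE A E)] (_ : CuspDatum E M (OE A E))
      (x : LaurentSeries E), x ∈ bigField E M → IsIntegral (Algebra.adjoin E {TE E}) x →
        x ∈ gaussRing (OE A E) E → IntOver (OE A E) E (TE E) x)
    (y : LaurentSeries A)
    (hy : coeffMap A.subtype y ∈ laurentBaseChange L (modularFunctionFieldFull M))
    (hint : IsIntegral (Algebra.adjoin L {TL}) (coeffMap A.subtype y)) :
    IsIntegral (Algebra.adjoin A {TA}) y := by
  classical
  obtain ⟨S₁, h₁⟩ := desc_of_mem M hy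
  obtain ⟨p, hp, hp0⟩ := (isIntegral_adjoin_singleton_iff _ _).mp hint
  obtain ⟨S₂, h₂⟩ := exists_lift_biv p hp
  -- the number field
  obtain ⟨E, hSE, hfd⟩ : ∃ E : IntermediateField ℚ L,
      (↑(S₁ ∪ S₂ ∪ {zL}) : Set L) ⊆ E ∧ FiniteDimensional ℚ E :=
    ⟨IntermediateField.adjoin ℚ (↑(S₁ ∪ S₂ ∪ {zL}) : Set L),
      IntermediateField.subset_adjoin ℚ _,
      IntermediateField.finiteDimensional_adjoin
        (fun x _ => (Algebra.IsAlgebraic.isAlgebraic x).isIntegral)⟩
  have : CharZero L := algebraRat.charZero L
  have : NumberField E := @NumberField.mk E _ inferInstance (by convert hfd; exact Subsingleton.elim _ _)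
  have hzE : zL ∈ E := hSE (by simp)
  obtain ⟨xE, hxE, hx⟩ := h₁ E (fun a ha => hSE (by
    have := Finset.mem_coe.mp ha
    simp [this]))
  obtain ⟨pE, hpE, hpmap⟩ := h₂ E (fun a ha => hSE (by
    have := Finset.mem_coe.mp ha
    simp [this]))
  have := isDiscreteValuationRing_OE A E hA
  have hinjE : Function.Injective (coeffMap (algebraMap E L)) :=
    coeffMap_injective _ (algebraMap E L).injective
  -- integrality over `E[T]`
  have hintE : IsIntegral (Algebra.adjoin E {TE E}) xE := by
    refine (isIntegral_adjoin_singleton_iff _ _).mpr ⟨pE, hpE, hinjE ?_⟩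
    rw [map_zero, map_biv (algebraMap E L) (coeffMap (algebraMap E L))
      (algebraMap E (LaurentSeries E)) (algebraMap L (LaurentSeries L))
      (fun r => coeffMap_algebraMap_laurent _ r), hTE, hx, hpmap]
    exact hp0
  -- the coefficients of `xE` lie in `OE`
  have hcoeff : ∀ n, xE.coeff n ∈ OE A E := by
    intro n
    rw [mem_OE_iff A E hA]
    have h3 := congrArg (fun z => z.coeff n) hx
    simp only [coeffMap_coeff] at h3
    have h4 : ((xE.coeff n : E) : L) = ((y.coeff n : A) : L) := h3
    rw [h4]
    exact (y.coeff n).2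
  have hgauss : xE ∈ gaussRing (OE A E) E := by
    let yE : LaurentSeries (OE A E) :=
      { coeff := fun n => ⟨xE.coeff n, hcoeff n⟩
        isPWO_support' := xE.isPWO_support.mono fun n hn => by
          simp only [Function.mem_support, ne_eq] at hn ⊢
          intro h0
          exact hn (Subtype.ext h0) }
    have : serEmb (OE A E) E yE = xE := by
      ext n
      rfl
    rw [← this]
    exact serEmb_mem_gaussRing yE
  -- the DVR statement
  have hO := hcore E (datumE A E M ι hz hzE hA hℓM) xE hxE hintE hgauss
  obtain ⟨q, hq, hq0⟩ := (intOver_iff _ _).mp hO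
  -- transport to `A`
  refine (isIntegral_adjoin_singleton_iff _ _).mpr
    ⟨q.map (Polynomial.mapRingHom (oeToA A E)), hq.map _,
      coeffMap_injective A.subtype A.subtype_injective ?_⟩
  rw [map_zero, map_biv A.subtype (coeffMap A.subtype)
    (algebraMap A (LaurentSeries A)) (algebraMap L (LaurentSeries L))
    (fun r => coeffMap_algebraMap_laurent _ r), hTA, Polynomial.map_map]
  have h5 := congrArg (coeffMap (algebraMap E L)) hq0
  rw [map_zero, coeffMap_biv_generic, hTE, hx] at h5
  have h6 : (Polynomial.mapRingHom A.subtype).comp (Polynomial.mapRingHom (oeToA A E)) =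
      Polynomial.mapRingHom ((algebraMap E L).comp (algebraMap (OE A E) E)) := by
    rw [← subtype_comp_oeToA]
    ext <;> simp
  rw [h6]
  exact h5

/-- **q-expansion principle over `A`, chart `j`**: a series with coefficients in `A` which lies
in the function field of level `M` and is integral over `L[j]` is integral over `A[j]`. -/
theorem coreA_fin (hA : A.LiesOverPrime ℓ) (hℓM : ¬ ℓ ∣ M) (hz : ι zL = zetaC M)
    (y : LaurentSeries A)
    (hy : coeffMap A.subtype y ∈ laurentBaseChange L (modularFunctionFieldFull M))
    (hint : IsIntegral (Algebra.adjoin L {jqModC L}) (coeffMap A.subtype y)) :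
    IsIntegral (Algebra.adjoin A {jqModC A}) y :=
  coreA_generic A M ι hA hℓM hz (jqModC L) (jqModC A) (coeffMap_jqModC _)
    (fun E => jqModC E) (fun _ => coeffMap_jqModC _)
    (fun E _ _ D x hx hxint hg => isIntegral_fin D x hx hxint hg) y hy hint

theorem jInvS_eq_inv (K : Type*) [Field K] : PolyDescent.jInvS K = (jqModC K)⁻¹ :=
  eq_inv_of_mul_eq_one_right (PolyDescent.jqModC_mul_jInvS K)

/-- **q-expansion principle over `A`, chart `1/j`**. -/
theorem coreA_inf (hA : A.LiesOverPrime ℓ) (hℓM : ¬ ℓ ∣ M) (hz : ι zL = zetaC M)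
    (y : LaurentSeries A)
    (hy : coeffMap A.subtype y ∈ laurentBaseChange L (modularFunctionFieldFull M))
    (hint : IsIntegral (Algebra.adjoin L {(jqModC L)⁻¹}) (coeffMap A.subtype y)) :
    IsIntegral (Algebra.adjoin A {PolyDescent.jInvS A}) y :=
  coreA_generic A M ι hA hℓM hz (jqModC L)⁻¹ (PolyDescent.jInvS A)
    (by rw [PolyDescent.coeffMap_jInvS, jInvS_eq_inv])
    (fun E => (jqModC E)⁻¹) (fun _ => by rw [map_inv₀, coeffMap_jqModC])
    (fun E _ _ D x hx hxint hg => isIntegral_inf D x hx hxint hg) y hy hint

end CoreA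

end Fermat.Agent.GJ.Gauss
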