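import Fermat.Agent.S28.CuspCoreFinal

/-!
# GATE-J / J1 / M-GAUSS, step A: the q-expansion principle over a discrete valuation ring

For a cusp datum `D : CuspDatum k N O` (T28), `O` a discrete valuation ring with fraction
field `k`:

* `isIntegral_fin D x`: if `x` lies in the big field of level `N`, is integral over `k[j]` and is
  Gauss-integral, then `x` is integral over `O[j]`;
* `isIntegral_inf D x`: the same for the chart `1/j`.

The only modular input is `CuspCoreFinal.coreFin / coreInf`; the rest is clearing of denominators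
and induction on the power of the uniformizer.
-/

set_option autoImplicit false
set_option linter.unusedSectionVars false

noncomputable section

namespace Fermat.Agent.GJ.Gauss

open Polynomial ModularCurve Fermat.Agent.S28

section Denominators

variable {O k B : Type*} [CommRing O] [Field k] [Algebra O k] [IsFractionRing O k]
  [CommRing B] [Nontrivial B] [Algebra k B] [Algebra O B]

/-- every element of `k[T]` becomes an element of `O[T]` after multiplication by a nonzero
constant of `O` -/
theorem exists_ne_zero_mul_mem_adjoin [IsDomain O]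
    (htower : ∀ a : O, algebraMap O B a = algebraMap k B (algebraMap O k a)) (T : B) {a : B}
    (ha : a ∈ Algebra.adjoin k {T}) :
    ∃ c : O, c ≠ 0 ∧ algebraMap O B c * a ∈ Algebra.adjoin O {T} := by
  induction ha using Algebra.adjoin_induction with
  | mem y hy =>
    refine ⟨1, one_ne_zero, ?_⟩
    rw [map_one, one_mul]
    exact Algebra.subset_adjoin hy
  | algebraMap r =>
    obtain ⟨⟨n, s⟩, hs⟩ := IsLocalization.surj (nonZeroDivisors O) r
    refine ⟨s, nonZeroDivisors.ne_zero s.2, ?_⟩
    have h1 : algebraMap O B (s : O) * algebraMap k B r = algebraMap O B n := by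
      rw [htower, htower n, ← map_mul, mul_comm]
      exact congrArg _ hs
    rw [h1]
    exact Subalgebra.algebraMap_mem _ n
  | add y z _ _ hy hz =>
    obtain ⟨c, hc, hcy⟩ := hy
    obtain ⟨d, hd, hdz⟩ := hz
    refine ⟨c * d, mul_ne_zero hc hd, ?_⟩
    have : algebraMap O B (c * d) * (y + z) =
        algebraMap O B d * (algebraMap O B c * y) + algebraMap O B c * (algebraMap O B d * z) := by
      rw [map_mul]; ring
    rw [this]
    exact add_mem (mul_mem (Subalgebra.algebraMap_mem _ d) hcy)
      (mul_mem (Subalgebra.algebraMap_mem _ c) hdz)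
  | mul y z _ _ hy hz =>
    obtain ⟨c, hc, hcy⟩ := hy
    obtain ⟨d, hd, hdz⟩ := hz
    refine ⟨c * d, mul_ne_zero hc hd, ?_⟩
    have : algebraMap O B (c * d) * (y * z) =
        (algebraMap O B c * y) * (algebraMap O B d * z) := by
      rw [map_mul]; ring
    rw [this]
    exact mul_mem hcy hdz

/-- **Clearing denominators**: an element integral over `k[T]` becomes integral over `O[T]`
after multiplication by a nonzero constant of `O`. -/
theorem exists_ne_zero_isIntegral_mul [IsDomain O]
    (htower : ∀ a : O, algebraMap O B a = algebraMap k B (algebraMap O k a)) (T : B) {x : B}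
    (hx : IsIntegral (Algebra.adjoin k {T}) x) :
    ∃ c : O, c ≠ 0 ∧ IsIntegral (Algebra.adjoin O {T}) (algebraMap O B c * x) := by
  classical
  obtain ⟨p, hmonic, hroot⟩ := hx
  have hcoeff : ∀ i, ∃ c : O, c ≠ 0 ∧
      algebraMap O B c * (p.coeff i : B) ∈ Algebra.adjoin O {T} :=
    fun i => exists_ne_zero_mul_mem_adjoin htower T (p.coeff i).2
  choose c hc0 hc using hcoeff
  set s : Finset ℕ := Finset.range (p.natDegree + 1) with hs
  set C : O := ∏ i ∈ s, c i with hC
  have hC0 : C ≠ 0 := Finset.prod_ne_zero_iff.mpr fun i _ => hc0 i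
  have hdvd : ∀ i ≤ p.natDegree, c i ∣ C := fun i hi =>
    Finset.dvd_prod_of_mem c (Finset.mem_range.mpr (Nat.lt_succ_of_le hi))
  refine ⟨C, hC0, ?_⟩
  set q : B[X] := (p.map (algebraMap (Algebra.adjoin k {T}) B)).scaleRoots (algebraMap O B C)
    with hq
  have hqmonic : q.Monic := (Polynomial.monic_scaleRoots_iff _).mpr (hmonic.map _)
  have hqroot : q.eval (algebraMap O B C * x) = 0 := by
    rw [hq, Polynomial.scaleRoots_eval_mul, Polynomial.eval_map, hroot, mul_zero]
  have hqcoeff : ∀ i, q.coeff i ∈ Algebra.adjoin O {T} := by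
    intro i
    rw [hq, Polynomial.coeff_scaleRoots, Polynomial.coeff_map, hmonic.natDegree_map]
    by_cases hi : i < p.natDegree
    · obtain ⟨d, hd⟩ := hdvd i hi.le
      obtain ⟨m, hm⟩ : ∃ m, p.natDegree - i = m + 1 := ⟨p.natDegree - i - 1, by omega⟩
      rw [hm, pow_succ, Subalgebra.algebraMap_def, Algebra.algebraMap_self_apply,
        show (p.coeff i : B) * (algebraMap O B C ^ m * algebraMap O B C) =
          algebraMap O B C ^ m * (algebraMap O B C * (p.coeff i : B)) by ring]
      refine mul_mem (pow_mem (Subalgebra.algebraMap_mem _ C) m) ?_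
      rw [hd, map_mul, mul_right_comm]
      exact mul_mem (hc i) (Subalgebra.algebraMap_mem _ d)
    · rcases (not_lt.mp hi).lt_or_eq with hlt | heq
      · rw [Polynomial.coeff_eq_zero_of_natDegree_lt hlt, map_zero, zero_mul]
        exact zero_mem _
      · rw [← heq, hmonic.coeff_natDegree, map_one, one_mul, Nat.sub_self, pow_zero]
        exact one_mem _
  have hlifts : q ∈ Polynomial.lifts (algebraMap (Algebra.adjoin O {T}) B) :=
    (Polynomial.lifts_iff_coeff_lifts q).mpr fun i => ⟨⟨q.coeff i, hqcoeff i⟩, rfl⟩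
  obtain ⟨q', hq'q, -, hq'monic⟩ := Polynomial.lifts_and_natDegree_eq_and_monic hlifts hqmonic
  exact ⟨q', hq'monic, by rw [Polynomial.eval₂_eq_eval_map, hq'q, hqroot]⟩

end Denominators

section Core

variable {k : Type} [Field k] {N : ℕ} [NeZero N] {O : Type} [CommRing O] [IsDomain O]
  [IsDiscreteValuationRing O] [Algebra O k] [IsFractionRing O k]

/-- the `O`-algebra structure on `k((q))` found from `[Algebra O k]` is `C ∘ algebraMap O k` -/
theorem algebraMap_laurent_eq_C (a : O) :
    algebraMap O (LaurentSeries k) a = HahnSeries.C (algebraMap O k a) := by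
  rw [HahnSeries.algebraMap_apply']
  have : algebraMap O (PowerSeries k) a = PowerSeries.C (algebraMap O k a) := by
    rw [IsScalarTower.algebraMap_apply O k (PowerSeries k)]
    rfl
  rw [this, HahnSeries.ofPowerSeries_C]

theorem algebraMap_laurent_tower (a : O) :
    algebraMap O (LaurentSeries k) a = algebraMap k (LaurentSeries k) (algebraMap O k a) := by
  rw [algebraMap_laurent_eq_C, algebraMap_eq_C]

theorem C_mem_bigField (c : k) : HahnSeries.C c ∈ bigField k N := by
  rw [← algebraMap_eq_C]
  exact (bigField k N).algebraMap_mem c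

/-- the generic induction: from a "core" statement for the generator `T` to the q-expansion
principle for the chart `T` -/
theorem isIntegral_of_core (T : LaurentSeries k)
    (hcore : ∀ {ϖ : O}, Irreducible ϖ → ∀ x ∈ bigField k N,
      IsIntegral (Algebra.adjoin O {T}) x →
        (∃ v ∈ gaussRing O k, x = HahnSeries.C (algebraMap O k ϖ) * v) →
          IsIntegral (Algebra.adjoin O {T}) (HahnSeries.C (algebraMap O k ϖ)⁻¹ * x))
    (x : LaurentSeries k) (hx : x ∈ bigField k N)
    (hint : IsIntegral (Algebra.adjoin k {T}) x) (hg : x ∈ gaussRing O k) :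
    IsIntegral (Algebra.adjoin O {T}) x := by
  obtain ⟨ϖ, hϖ⟩ := IsDiscreteValuationRing.exists_irreducible O
  obtain ⟨c, hc0, hc⟩ := exists_ne_zero_isIntegral_mul (O := O) (k := k)
    algebraMap_laurent_tower T hint
  obtain ⟨n, u, rfl⟩ := IsDiscreteValuationRing.eq_unit_mul_pow_irreducible hc0 hϖ
  have hϖ0 : HahnSeries.C (algebraMap O k ϖ) ≠ 0 := C_unif_ne_zero hϖ
  -- remove the unit
  have h1 : IsIntegral (Algebra.adjoin O {T}) (HahnSeries.C (algebraMap O k ϖ) ^ n * x) := by
    have hu : IsIntegral (Algebra.adjoin O {T})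
        (algebraMap O (LaurentSeries k) ((u⁻¹ : Oˣ) : O)) :=
      isIntegral_algebraMap (x := (⟨_, Subalgebra.algebraMap_mem _ ((u⁻¹ : Oˣ) : O)⟩ :
        Algebra.adjoin O {T}))
    have := hu.mul hc
    have h2 : algebraMap O (LaurentSeries k) ((u⁻¹ : Oˣ) : O) *
        (algebraMap O (LaurentSeries k) ((u : O) * ϖ ^ n) * x) =
        HahnSeries.C (algebraMap O k ϖ) ^ n * x := by
      rw [← mul_assoc, ← map_mul, ← mul_assoc, Units.inv_mul, one_mul, map_pow,
        algebraMap_laurent_eq_C]
    rwa [h2] at this
  clear hc hc0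
  induction n with
  | zero => simpa using h1
  | succ n ih =>
    apply ih
    have hmem : HahnSeries.C (algebraMap O k ϖ) ^ n * x ∈ gaussRing O k :=
      mul_mem (pow_mem (C_mem_gaussRing ϖ) n) hg
    have hbig : HahnSeries.C (algebraMap O k ϖ) ^ (n + 1) * x ∈ bigField k N :=
      mul_mem (pow_mem (C_mem_bigField _) _) hx
    have := hcore hϖ _ hbig h1 ⟨_, hmem, by rw [pow_succ']; ring⟩
    rwa [map_inv₀, pow_succ', mul_assoc, inv_mul_cancel_left₀ hϖ0] at this

/-- **q-expansion principle over a DVR, chart `j`.** -/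
theorem isIntegral_fin (D : CuspDatum k N O) (x : LaurentSeries k) (hx : x ∈ bigField k N)
    (hint : IsIntegral (Algebra.adjoin k {jqModC k}) x) (hg : x ∈ gaussRing O k) :
    IsIntegral (Algebra.adjoin O {jqModC k}) x :=
  isIntegral_of_core (jqModC k)
    (fun hϖ y hy hyint hred => CuspCoreFinal.coreFin D hϖ y hy hyint hred) x hx hint hg

/-- **q-expansion principle over a DVR, chart `1/j`.** -/
theorem isIntegral_inf (D : CuspDatum k N O) (x : LaurentSeries k) (hx : x ∈ bigField k N)
    (hint : IsIntegral (Algebra.adjoin k {(jqModC k)⁻¹}) x) (hg : x ∈ gaussRing O k) :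
    IsIntegral (Algebra.adjoin O {(jqModC k)⁻¹}) x :=
  isIntegral_of_core (jqModC k)⁻¹
    (fun hϖ y hy hyint hred => CuspCoreFinal.coreInf D hϖ y hy hyint hred) x hx hint hg

end Core

end Fermat.Agent.GJ.Gauss
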