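import Fermat.Agent.GJ.J1.Gauss.Main

/-!
# GATE-J / J1 / M-GAUSS: the q-expansion principle over `A`, FRACTION form

`x ∈ F_M ⊂ L((q))` with `x * b = a`, `a, b ∈ A((q)) ∩ F_M`, `b` of nonzero reduction (i.e. `x` lies
in the Gauss valuation ring `Rw` of `F_M`), integral over `L[j]`  ⟹  `x` is a root of a monic
polynomial with coefficients in `A[j]` (`biv` form).  No honest `A`-integral expansion of `x` is
assumed: the T28 cores work in the fraction-form Gauss ring of a DVR.
-/

set_option autoImplicit false
set_option linter.unusedSectionVars false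

noncomputable section

namespace Fermat.Agent.GJ.Gauss

open Polynomial ModularCurve Fermat.Agent.S28

section BivComp

variable {R R' B : Type*} [CommRing R] [CommRing R'] [CommRing B]

theorem biv_comp (f : R →+* R') (c' : R' →+* B) (T y : B) (p : R[X][X]) :
    biv (c'.comp f) T y p = biv c' T y (p.map (Polynomial.mapRingHom f)) := by
  have := map_biv f (RingHom.id B) (c'.comp f) c' (fun r => rfl) T y p
  simpa using this

end BivComp

section CoreFrac

variable {L : Type} [Field L] [Algebra ℚ L] [Algebra.IsAlgebraic ℚ L]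
variable (A : ValuationSubring L) {ℓ : ℕ} [Fact ℓ.Prime]
variable (M : ℕ) [NeZero M]
variable (ι : L →+* ℂ) {zL : L}

/-- a series over a subfield `E` whose image over `L` has coefficients in `A` comes from a series
over `OE A E` -/
theorem exists_oe_series (hA : A.LiesOverPrime ℓ) (E : IntermediateField ℚ L) [NumberField E]
    (aE : LaurentSeries E) (a : LaurentSeries A)
    (h : coeffMap (algebraMap E L) aE = coeffMap A.subtype a) :
    ∃ g : LaurentSeries (OE A E), serEmb (OE A E) E g = aE ∧
      ∀ n, ((g.coeff n : OE A E) : E) = aE.coeff n := by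
  have hcoeff : ∀ n, aE.coeff n ∈ OE A E := by
    intro n
    rw [mem_OE_iff A E hA]
    have h3 := congrArg (fun z => z.coeff n) h
    simp only [coeffMap_coeff] at h3
    have h4 : ((aE.coeff n : E) : L) = ((a.coeff n : A) : L) := h3
    rw [h4]
    exact (a.coeff n).2
  refine ⟨{ coeff := fun n => ⟨aE.coeff n, hcoeff n⟩
            isPWO_support' := aE.isPWO_support.mono fun n hn => by
              simp only [Function.mem_support, ne_eq] at hn ⊢
              intro h0
              exact hn (Subtype.ext h0) }, ?_, fun n => rfl⟩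
  ext n
  rfl

/-- **The generic chart statement, fraction form.** -/
theorem coreA_generic_frac (hA : A.LiesOverPrime ℓ) (hℓM : ¬ ℓ ∣ M) (hz : ι zL = zetaC M)
    (TL : LaurentSeries L)
    (TE : ∀ E : IntermediateField ℚ L, LaurentSeries E)
    (hTE : ∀ E : IntermediateField ℚ L, coeffMap (algebraMap E L) (TE E) = TL)
    (hcore : ∀ (E : IntermediateField ℚ L) [NumberField E]
      [IsDiscreteValuationRing (OE A E)] (_ : CuspDatum E M (OE A E))
      (x : LaurentSeries E), x ∈ bigField E M → IsIntegral (Algebra.adjoin E {TE E}) x →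
        x ∈ gaussRing (OE A E) E → IntOver (OE A E) E (TE E) x)
    (x : LaurentSeries L) (a b : LaurentSeries A)
    (hx : x ∈ laurentBaseChange L (modularFunctionFieldFull M))
    (ha : coeffMap A.subtype a ∈ laurentBaseChange L (modularFunctionFieldFull M))
    (hb : coeffMap A.subtype b ∈ laurentBaseChange L (modularFunctionFieldFull M))
    (hbr : coeffMap (IsLocalRing.residue A) b ≠ 0)
    (hab : x * coeffMap A.subtype b = coeffMap A.subtype a)
    (hint : IsIntegral (Algebra.adjoin L {TL}) x) :
    ∃ Q : A[X][X], Q.Monic ∧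
      biv ((algebraMap L (LaurentSeries L)).comp A.subtype) TL x Q = 0 := by
  classical
  obtain ⟨S₁, h₁⟩ := desc_of_mem M hx
  obtain ⟨Sa, h₁a⟩ := desc_of_mem M ha
  obtain ⟨Sb, h₁b⟩ := desc_of_mem M hb
  obtain ⟨p, hp, hp0⟩ := (isIntegral_adjoin_singleton_iff _ _).mp hint
  obtain ⟨S₂, h₂⟩ := exists_lift_biv p hp
  -- the number field
  obtain ⟨E, hSE, hfd⟩ : ∃ E : IntermediateField ℚ L,
      (↑(S₁ ∪ Sa ∪ Sb ∪ S₂ ∪ {zL}) : Set L) ⊆ E ∧ FiniteDimensional ℚ E :=
    ⟨IntermediateField.adjoin ℚ (↑(S₁ ∪ Sa ∪ Sb ∪ S₂ ∪ {zL}) : Set L),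
      IntermediateField.subset_adjoin ℚ _,
      IntermediateField.finiteDimensional_adjoin
        (fun x _ => (Algebra.IsAlgebraic.isAlgebraic x).isIntegral)⟩
  have : CharZero L := algebraRat.charZero L
  have : NumberField E :=
    @NumberField.mk E _ inferInstance (by convert hfd; exact Subsingleton.elim _ _)
  have hzE : zL ∈ E := hSE (by simp)
  obtain ⟨xE, hxE, hxx⟩ := h₁ E (fun c hc => hSE (by
    have := Finset.mem_coe.mp hc
    simp [this]))
  obtain ⟨aE, -, haa⟩ := h₁a E (fun c hc => hSE (by
    have := Finset.mem_coe.mp hc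
    simp [this]))
  obtain ⟨bE, -, hbb⟩ := h₁b E (fun c hc => hSE (by
    have := Finset.mem_coe.mp hc
    simp [this]))
  obtain ⟨pE, hpE, hpmap⟩ := h₂ E (fun c hc => hSE (by
    have := Finset.mem_coe.mp hc
    simp [this]))
  have := isDiscreteValuationRing_OE A E hA
  have hinjE : Function.Injective (coeffMap (algebraMap E L)) :=
    coeffMap_injective _ (algebraMap E L).injective
  -- integrality over `E[T]`
  have hintE : IsIntegral (Algebra.adjoin E {TE E}) xE := by
    refine (isIntegral_adjoin_singleton_iff _ _).mpr ⟨pE, hpE, hinjE ?_⟩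
    rw [map_zero, map_biv (algebraMap E L) (coeffMap (algebraMap E L))
      (algebraMap E (LaurentSeries E)) (algebraMap L (LaurentSeries L))
      (fun r => coeffMap_algebraMap_laurent _ r), hTE, hxx, hpmap]
    exact hp0
  -- numerator and denominator over `OE`
  obtain ⟨g, hg, -⟩ := exists_oe_series A hA E aE a haa
  obtain ⟨h, hh, hhc⟩ := exists_oe_series A hA E bE b hbb
  have hred : serRed (OE A E) h ≠ 0 := by
    -- a coefficient of `b` is a unit of `A`
    obtain ⟨n, hn⟩ : ∃ n, (coeffMap (IsLocalRing.residue A) b).coeff n ≠ 0 := by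
      by_contra hcon
      push Not at hcon
      exact hbr (HahnSeries.ext (funext hcon))
    rw [coeffMap_coeff] at hn
    have hunit : IsUnit (b.coeff n) := by
      by_contra hnu
      exact hn ((IsLocalRing.residue_eq_zero_iff _).mpr
        ((IsLocalRing.mem_maximalIdeal _).mpr hnu))
    intro h0
    have h1 := congrArg (fun z => z.coeff n) h0
    simp only [serRed_coeff, HahnSeries.coeff_zero] at h1
    have h2 : h.coeff n ∈ IsLocalRing.maximalIdeal (OE A E) :=
      (IsLocalRing.residue_eq_zero_iff _).mp h1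
    apply (IsLocalRing.mem_maximalIdeal _).mp h2
    -- `h.coeff n` maps to the unit `b.coeff n`
    have hval : (((h.coeff n : OE A E) : E) : L) = ((b.coeff n : A) : L) := by
      rw [hhc n]
      have h3 := congrArg (fun z => z.coeff n) hbb
      simp only [coeffMap_coeff] at h3
      exact h3
    obtain ⟨u, hu⟩ := hunit.exists_right_inv
    have huL : ((b.coeff n : A) : L) * (u : L) = 1 := by
      have := congrArg (fun z : A => (z : L)) hu
      simpa using this
    have hne : (((h.coeff n : OE A E) : E)) ≠ 0 := by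
      intro h0
      rw [h0] at hval
      rw [← hval] at huL
      simp at huL
    have hinv : (((h.coeff n : OE A E) : E))⁻¹ ∈ OE A E := by
      rw [mem_OE_iff A E hA]
      have : ((((h.coeff n : OE A E) : E)⁻¹ : E) : L) = (u : L) := by
        push_cast
        rw [hval]
        exact inv_eq_of_mul_eq_one_right huL
      rw [this]
      exact u.2
    refine IsUnit.of_mul_eq_one (⟨_, hinv⟩ : OE A E) (Subtype.ext ?_)
    push_cast
    exact mul_inv_cancel₀ hne
  have hgauss : xE ∈ gaussRing (OE A E) E := by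
    refine ⟨g, h, hred, hinjE ?_⟩
    rw [map_mul, hg, hh, hxx, haa, hbb]
    exact hab
  -- the DVR statement
  have hO := hcore E (datumE A E M ι hz hzE hA hℓM) xE hxE hintE hgauss
  obtain ⟨q, hq, hq0⟩ := (intOver_iff _ _).mp hO
  -- transport to `A`
  refine ⟨q.map (Polynomial.mapRingHom (oeToA A E)), hq.map _, ?_⟩
  rw [biv_comp, Polynomial.map_map]
  have h5 := congrArg (coeffMap (algebraMap E L)) hq0
  rw [map_zero, coeffMap_biv_generic, hTE, hxx] at h5
  have h6 : (Polynomial.mapRingHom A.subtype).comp (Polynomial.mapRingHom (oeToA A E)) =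
      Polynomial.mapRingHom ((algebraMap E L).comp (algebraMap (OE A E) E)) := by
    rw [← subtype_comp_oeToA]
    ext <;> simp
  rw [h6]
  exact h5

/-- **q-expansion principle over `A`, chart `j`, fraction form.** -/
theorem coreA_fin_frac (hA : A.LiesOverPrime ℓ) (hℓM : ¬ ℓ ∣ M) (hz : ι zL = zetaC M)
    (x : LaurentSeries L) (a b : LaurentSeries A)
    (hx : x ∈ laurentBaseChange L (modularFunctionFieldFull M))
    (ha : coeffMap A.subtype a ∈ laurentBaseChange L (modularFunctionFieldFull M))
    (hb : coeffMap A.subtype b ∈ laurentBaseChange L (modularFunctionFieldFull M))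
    (hbr : coeffMap (IsLocalRing.residue A) b ≠ 0)
    (hab : x * coeffMap A.subtype b = coeffMap A.subtype a)
    (hint : IsIntegral (Algebra.adjoin L {jqModC L}) x) :
    ∃ Q : A[X][X], Q.Monic ∧
      biv ((algebraMap L (LaurentSeries L)).comp A.subtype) (jqModC L) x Q = 0 :=
  coreA_generic_frac A M ι hA hℓM hz (jqModC L)
    (fun E => jqModC E) (fun _ => coeffMap_jqModC _)
    (fun E _ _ D x hx hxint hg => isIntegral_fin D x hx hxint hg) x a b hx ha hb hbr hab hint

/-- **q-expansion principle over `A`, chart `1/j`, fraction form.** -/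
theorem coreA_inf_frac (hA : A.LiesOverPrime ℓ) (hℓM : ¬ ℓ ∣ M) (hz : ι zL = zetaC M)
    (x : LaurentSeries L) (a b : LaurentSeries A)
    (hx : x ∈ laurentBaseChange L (modularFunctionFieldFull M))
    (ha : coeffMap A.subtype a ∈ laurentBaseChange L (modularFunctionFieldFull M))
    (hb : coeffMap A.subtype b ∈ laurentBaseChange L (modularFunctionFieldFull M))
    (hbr : coeffMap (IsLocalRing.residue A) b ≠ 0)
    (hab : x * coeffMap A.subtype b = coeffMap A.subtype a)
    (hint : IsIntegral (Algebra.adjoin L {(jqModC L)⁻¹}) x) :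
    ∃ Q : A[X][X], Q.Monic ∧
      biv ((algebraMap L (LaurentSeries L)).comp A.subtype) (jqModC L)⁻¹ x Q = 0 :=
  coreA_generic_frac A M ι hA hℓM hz (jqModC L)⁻¹
    (fun E => (jqModC E)⁻¹) (fun _ => by rw [map_inv₀, coeffMap_jqModC])
    (fun E _ _ D x hx hxint hg => isIntegral_inf D x hx hxint hg) x a b hx ha hb hbr hab hint

end CoreFrac

section Final

variable (M : ℕ) [NeZero M] {ℓ : ℕ} [Fact ℓ.Prime] (hℓM : ¬ ℓ ∣ M)
variable (A : ValuationSubring (AlgebraicClosure ℚ)) (hA : A.LiesOverPrime ℓ)

include hℓM hA in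
/-- **q-expansion principle over `A ⊂ ℚ̄`, chart `j`, fraction form**: an element of the Gauss
valuation ring of `F_M` which is integral over `ℚ̄[j]` is integral over `A[j]`. -/
theorem qexp_principle_fin_frac (x : LaurentSeries (AlgebraicClosure ℚ)) (a b : LaurentSeries A)
    (hx : x ∈ modularFunctionFieldBar M)
    (ha : coeffMap A.subtype a ∈ modularFunctionFieldBar M)
    (hb : coeffMap A.subtype b ∈ modularFunctionFieldBar M)
    (hbr : coeffMap (IsLocalRing.residue A) b ≠ 0)
    (hab : x * coeffMap A.subtype b = coeffMap A.subtype a)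
    (hint : IsIntegral (Algebra.adjoin (AlgebraicClosure ℚ) {jqModC (AlgebraicClosure ℚ)}) x) :
    ∃ Q : A[X][X], Q.Monic ∧
      biv ((algebraMap (AlgebraicClosure ℚ) (LaurentSeries (AlgebraicClosure ℚ))).comp A.subtype)
        (jqModC (AlgebraicClosure ℚ)) x Q = 0 := by
  haveI := isAlgebraic_Qbar
  obtain ⟨ι, zL, hz⟩ := exists_embedding_zeta M
  exact coreA_fin_frac A M ι hA hℓM hz x a b hx ha hb hbr hab hint

include hℓM hA in
/-- the same for the chart `1/j` -/
theorem qexp_principle_inf_frac (x : LaurentSeries (AlgebraicClosure ℚ)) (a b : LaurentSeries A)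
    (hx : x ∈ modularFunctionFieldBar M)
    (ha : coeffMap A.subtype a ∈ modularFunctionFieldBar M)
    (hb : coeffMap A.subtype b ∈ modularFunctionFieldBar M)
    (hbr : coeffMap (IsLocalRing.residue A) b ≠ 0)
    (hab : x * coeffMap A.subtype b = coeffMap A.subtype a)
    (hint : IsIntegral
      (Algebra.adjoin (AlgebraicClosure ℚ) {(jqModC (AlgebraicClosure ℚ))⁻¹}) x) :
    ∃ Q : A[X][X], Q.Monic ∧
      biv ((algebraMap (AlgebraicClosure ℚ) (LaurentSeries (AlgebraicClosure ℚ))).comp A.subtype)
        (jqModC (AlgebraicClosure ℚ))⁻¹ x Q = 0 := by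
  haveI := isAlgebraic_Qbar
  obtain ⟨ι, zL, hz⟩ := exists_embedding_zeta M
  exact coreA_inf_frac A M ι hA hℓM hz x a b hx ha hb hbr hab hint

end Final

end Fermat.Agent.GJ.Gauss
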