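import Fermat.Agent.GJ.J1.Gauss.NumField
import Fermat.Agent.GJ.J1.Gauss.Biv
import Fermat.Agent.S28.ChartTransport

/-!
# GATE-J / J1 / M-GAUSS, step C: descent from `L` to finitely generated subfields

For `L` a field of characteristic zero and the function field
`laurentBaseChange L (modularFunctionFieldFull M) ⊆ L((q))`:

* `Desc M x`: the series `x` descends, as an element of the big field of level `M`, to every
  sufficiently large subfield `E ⊆ L` ("sufficiently large" = containing a finite set `S`);
* `desc_of_mem`: every element of the function field descends;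
* `exists_lift_biv`: a monic bivariate polynomial over `L` descends to every sufficiently large
  subfield.
-/

set_option autoImplicit false
set_option linter.unusedSectionVars false

noncomputable section

namespace Fermat.Agent.GJ.Gauss

open Polynomial ModularCurve Fermat.Agent.S28

section Series

theorem algebraMap_laurent_eq_single {R : Type*} [CommRing R] (c : R) :
    algebraMap R (LaurentSeries R) c = HahnSeries.single 0 c := by
  have h1 : algebraMap R (PowerSeries R) c = PowerSeries.C c := by
    simp
  rw [HahnSeries.algebraMap_apply', h1, HahnSeries.ofPowerSeries_C]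
  rfl

theorem coeffMap_algebraMap_laurent {R S : Type*} [CommRing R] [CommRing S] (f : R →+* S)
    (c : R) :
    coeffMap f (algebraMap R (LaurentSeries R) c) = algebraMap S (LaurentSeries S) (f c) := by
  rw [algebraMap_laurent_eq_single, algebraMap_laurent_eq_single, coeffMap_single]

theorem coeffMap_injective {R S : Type*} [CommRing R] [CommRing S] (f : R →+* S)
    (hf : Function.Injective f) : Function.Injective (coeffMap f) := by
  intro x y h
  ext n
  have h1 := congrArg (fun z => z.coeff n) h
  simp only [coeffMap_coeff] at h1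
  exact hf h1

end Series

section Desc

variable {L : Type} [Field L] [Algebra ℚ L] (M : ℕ) [NeZero M]

/-- `x` descends to the big field of level `M` over every sufficiently large subfield of `L` -/
def Desc (x : LaurentSeries L) : Prop :=
  ∃ S : Finset L, ∀ E : IntermediateField ℚ L, (↑S : Set L) ⊆ E →
    ∃ xE : LaurentSeries E, xE ∈ bigField E M ∧ coeffMap (algebraMap E L) xE = x

theorem desc_algebraMap (c : L) : Desc M (algebraMap L (LaurentSeries L) c) := by
  refine ⟨{c}, fun E hE => ?_⟩
  have hc : c ∈ E := hE (by simp)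
  refine ⟨algebraMap E (LaurentSeries E) ⟨c, hc⟩, (bigField E M).algebraMap_mem _, ?_⟩
  rw [coeffMap_algebraMap_laurent (algebraMap E L)]
  rfl

theorem desc_coeffEmb (f : modularFunctionFieldFull M) :
    Desc M (coeffEmb L (f : LaurentSeries ℚ)) := by
  refine ⟨∅, fun E _ => ?_⟩
  refine ⟨coeffMap (algebraMap ℚ E) (f : LaurentSeries ℚ),
    ChartTransport.coeffMap_mem_bigField M E f, ?_⟩
  rw [coeffMap_coeffMap (algebraMap E L) (algebraMap ℚ E), coeffEmb]
  exact coeffMap_congr (IsScalarTower.algebraMap_eq ℚ E L).symm _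

theorem Desc.add {x y : LaurentSeries L} (hx : Desc M x) (hy : Desc M y) : Desc M (x + y) := by
  classical
  obtain ⟨S, hS⟩ := hx
  obtain ⟨T, hT⟩ := hy
  refine ⟨S ∪ T, fun E hE => ?_⟩
  obtain ⟨xE, hxE, hx⟩ := hS E (fun a ha => hE (by simp [Finset.mem_coe.mp ha]))
  obtain ⟨yE, hyE, hy⟩ := hT E (fun a ha => hE (by simp [Finset.mem_coe.mp ha]))
  exact ⟨xE + yE, add_mem hxE hyE, by rw [map_add, hx, hy]⟩

theorem Desc.mul {x y : LaurentSeries L} (hx : Desc M x) (hy : Desc M y) : Desc M (x * y) := by
  classical
  obtain ⟨S, hS⟩ := hx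
  obtain ⟨T, hT⟩ := hy
  refine ⟨S ∪ T, fun E hE => ?_⟩
  obtain ⟨xE, hxE, hx⟩ := hS E (fun a ha => hE (by simp [Finset.mem_coe.mp ha]))
  obtain ⟨yE, hyE, hy⟩ := hT E (fun a ha => hE (by simp [Finset.mem_coe.mp ha]))
  exact ⟨xE * yE, mul_mem hxE hyE, by rw [map_mul, hx, hy]⟩

theorem Desc.inv {x : LaurentSeries L} (hx : Desc M x) : Desc M x⁻¹ := by
  obtain ⟨S, hS⟩ := hx
  refine ⟨S, fun E hE => ?_⟩
  obtain ⟨xE, hxE, hx⟩ := hS E hE
  exact ⟨xE⁻¹, inv_mem hxE, by rw [map_inv₀, hx]⟩

/-- **every element of the function field over `L` descends** -/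
theorem desc_of_mem {x : LaurentSeries L}
    (hx : x ∈ laurentBaseChange L (modularFunctionFieldFull M)) : Desc M x := by
  unfold laurentBaseChange at hx
  induction hx using IntermediateField.adjoin_induction with
  | mem y hy =>
    obtain ⟨f, hf, rfl⟩ := hy
    exact desc_coeffEmb M ⟨f, hf⟩
  | algebraMap c => exact desc_algebraMap M c
  | add y z _ _ hy hz => exact hy.add M hz
  | inv y _ hy => exact hy.inv M
  | mul y z _ _ hy hz => exact hy.mul M hz

end Desc

section PolyDesc

variable {L : Type} [Field L] [Algebra ℚ L]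

/-- a monic bivariate polynomial over `L` descends to every sufficiently large subfield -/
theorem exists_lift_biv (p : L[X][X]) (hp : p.Monic) :
    ∃ S : Finset L, ∀ E : IntermediateField ℚ L, (↑S : Set L) ⊆ E →
      ∃ pE : (E : Type)[X][X], pE.Monic ∧
        pE.map (Polynomial.mapRingHom (algebraMap E L)) = p := by
  classical
  refine ⟨p.coeffs.biUnion fun a => a.coeffs, fun E hE => ?_⟩
  have hmem : ∀ i j, (p.coeff i).coeff j ∈ Set.range (algebraMap E L) := by
    intro i j
    by_cases h0 : (p.coeff i).coeff j = 0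
    · exact ⟨0, by rw [map_zero, h0]⟩
    · have hi : p.coeff i ≠ 0 := by
        intro h
        apply h0
        rw [h, Polynomial.coeff_zero]
      have : (p.coeff i).coeff j ∈ (↑(p.coeffs.biUnion fun a => a.coeffs) : Set L) := by
        rw [Finset.mem_coe, Finset.mem_biUnion]
        exact ⟨p.coeff i, Polynomial.coeff_mem_coeffs hi, Polynomial.coeff_mem_coeffs h0⟩
      exact ⟨⟨_, hE this⟩, rfl⟩
  have hlifts : p ∈ Polynomial.lifts (Polynomial.mapRingHom (algebraMap E L)) := by
    rw [Polynomial.lifts_iff_coeff_lifts]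
    intro i
    have : p.coeff i ∈ Polynomial.lifts (algebraMap E L) :=
      (Polynomial.lifts_iff_coeff_lifts _).mpr (hmem i)
    obtain ⟨q, hq⟩ := (Polynomial.mem_lifts _).mp this
    exact ⟨q, hq⟩
  obtain ⟨pE, hpE, -, hmonic⟩ := Polynomial.lifts_and_natDegree_eq_and_monic hlifts hp
  exact ⟨pE, hmonic, hpE⟩

end PolyDesc

end Fermat.Agent.GJ.Gauss
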