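import Fermat.Agent.GJ.J1.Gauss.CoreFrac
import Fermat.Agent.GJ.J1.IntegralityRedAdapter
import Fermat.Agent.GJ.J1.Val.GaussRedData
import Fermat.Agent.S24_helper62.CuspEmb
import Fermat.Agent.S24.Degree

/-!
# GATE-J / J1 / M-GAUSS: uniqueness of the Gauss valuation on `F_M = ℚ̄(X₀(M))`, DEG-free

`R := Val.redDataBar M A` (helper45), `A` above `ℓ ∤ M`.

* generic part (any `RedData`, any Gauss chart `s` with `F / K(s)` algebraic):
  `huniq_of_core` : if every `y ∈ Rw` integral over `K[s]` is a root of a monic polynomial with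
  coefficients in `A[s]` (the q-expansion principle in fraction form), then `Rw` is integral over
  `Rw ∩ K(s)` (`IntRed.Huniq R K⟮s⟯`, helper18's hypothesis);
* `huniq_bar : IntRed.Huniq (redDataBar M A) Kbar⟮jF M⟯`;
* `redRegFin_bar`, `redRegFin_bar_inv` : `RedRegFin t`, `RedRegFin t⁻¹` for every Gauss chart `t`
  with `ℚ̄(j) ≤ ℚ̄(t)`.
-/

set_option autoImplicit false
set_option linter.unusedSectionVars false

noncomputable section

namespace Fermat.Agent.GJ.Gauss

open Polynomial IntermediateField ModularCurve Fermat.Agent.GJ.J1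
open scoped IntermediateField.algebraAdjoinAdjoin

section Generic

variable {K F k Ft : Type*} [Field K] [Field F] [Algebra K F] [Field k] [Field Ft] [Algebra k Ft]
variable {R : RedData K F k Ft} {s : F}

/-- clearing denominators by a PRIMITIVE polynomial in the chart -/
theorem exists_primitive_mul_regFin (x : F) (hx : IsAlgebraic K⟮s⟯ x) :
    ∃ d : R.A[X], d.map R.res ≠ 0 ∧ RegFin K s (aeval s (d.map R.A.subtype) * x) := by
  have hx' : IsAlgebraic (Algebra.adjoin K {s}) x :=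
    (IsFractionRing.isAlgebraic_iff (Algebra.adjoin K {s}) K⟮s⟯ F).mpr hx
  obtain ⟨y, hy0, hy⟩ := hx'.exists_integral_multiple
  obtain ⟨p, hp⟩ : ∃ p : K[X], aeval s p = (y : F) := by
    have : (y : F) ∈ (aeval s : K[X] →ₐ[K] F).range := by
      rw [← Algebra.adjoin_singleton_eq_range_aeval]
      exact y.2
    exact this
  have hp0 : p ≠ 0 := by
    rintro rfl
    apply hy0
    apply Subtype.ext
    rw [← hp, map_zero]
    rfl
  obtain ⟨i₀, q, hc₀, -, hq, hq1⟩ := IntRed.exists_scaling R.A hp0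
  refine ⟨q, IntRed.map_res_ne_zero_of_coeff_eq_one q hq1, ?_⟩
  have h1 : aeval s (q.map R.A.subtype) * x = (p.coeff i₀)⁻¹ • ((y : F) * x) := by
    rw [hq, map_mul, aeval_C, hp, Algebra.smul_def, mul_assoc]
  rw [h1]
  apply RegFin.smul
  have : y • x = (y : F) * x := rfl
  rw [← this]
  exact hy

/-- the evaluation `A[X] → Rw ∩ K(s)` -/
def evalO (R : RedData K F k Ft) {s : F} (hs : s ∈ R.Rw) :
    R.A[X] →+* ↥(R.Rw.comap (algebraMap K⟮s⟯ F) : ValuationSubring K⟮s⟯) :=
  (IntRed.evalE R s).codRestrict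
    (R.Rw.comap (algebraMap K⟮s⟯ F) : ValuationSubring K⟮s⟯) (fun q => by
      change algebraMap K⟮s⟯ F (IntRed.evalE R s q) ∈ R.Rw
      rw [IntRed.algebraMap_evalE hs]
      exact IntRed.aeval_mem_Rw hs q)

theorem algebraMap_evalO (hs : s ∈ R.Rw) (q : R.A[X]) :
    algebraMap ↥(R.Rw.comap (algebraMap K⟮s⟯ F) : ValuationSubring K⟮s⟯) F (evalO R hs q) =
      aeval s (q.map R.A.subtype) :=
  IntRed.algebraMap_evalE hs q

theorem algebraMap_comp_evalO (hs : s ∈ R.Rw) :
    (algebraMap ↥(R.Rw.comap (algebraMap K⟮s⟯ F) : ValuationSubring K⟮s⟯) F).comp (evalO R hs) =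
      Polynomial.eval₂RingHom ((algebraMap K F).comp R.A.subtype) s := by
  refine RingHom.ext fun q => ?_
  rw [RingHom.comp_apply, algebraMap_evalO, aeval_def, eval₂_map]
  rfl

/-- a root of a monic polynomial over `A[s]` is integral over `Rw ∩ K(s)` -/
theorem isIntegral_Ov_of_biv (hs : s ∈ R.Rw) {y : F} {Q : R.A[X][X]} (hQ : Q.Monic)
    (h0 : biv ((algebraMap K F).comp R.A.subtype) s y Q = 0) :
    IsIntegral ↥(R.Rw.comap (algebraMap K⟮s⟯ F) : ValuationSubring K⟮s⟯) y := by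
  refine ⟨Q.map (evalO R hs), hQ.map _, ?_⟩
  rw [Polynomial.eval₂_map, algebraMap_comp_evalO hs]
  exact h0

/-- **from the q-expansion principle (fraction form) to uniqueness of the Gauss valuation** -/
theorem huniq_of_core (hs : R.IsGaussChart s) (halg : Algebra.IsAlgebraic K⟮s⟯ F)
    (hcore : ∀ y : F, y ∈ R.Rw → RegFin K s y →
      ∃ Q : R.A[X][X], Q.Monic ∧ biv ((algebraMap K F).comp R.A.subtype) s y Q = 0) :
    IntRed.Huniq R K⟮s⟯ := by
  intro x hx
  obtain ⟨d, hd, hreg⟩ := exists_primitive_mul_regFin (R := R) x (halg.isAlgebraic x)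
  set u : F := aeval s (d.map R.A.subtype) with hu
  have huR : u ∈ R.Rw := IntRed.aeval_mem_Rw hs.1 d
  have hyR : u * x ∈ R.Rw := mul_mem huR hx
  obtain ⟨Q, hQ, hQ0⟩ := hcore (u * x) hyR hreg
  have hy : IsIntegral ↥(R.Rw.comap (algebraMap K⟮s⟯ F) : ValuationSubring K⟮s⟯) (u * x) :=
    isIntegral_Ov_of_biv hs.1 hQ hQ0
  -- `u` is a unit of `Rw ∩ K(s)`
  have hne : R.red (IntRed.evalA hs.1 d) ≠ 0 := IntRed.red_evalA_ne_zero hs d hd
  have hunit : IsUnit (IntRed.evalA hs.1 d) := by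
    by_contra hnu
    exact hne ((R.red_eq_zero_iff _).2 ((IsLocalRing.mem_maximalIdeal _).2 hnu))
  obtain ⟨v, hv⟩ := hunit.exists_right_inv
  have hcoe : ((IntRed.evalA hs.1 d : R.Rw) : F) = u := IntRed.coe_evalA hs.1 d
  have huv : u * (v : F) = 1 := by
    have := congrArg (fun z : R.Rw => (z : F)) hv
    simp only [MulMemClass.coe_mul, OneMemClass.coe_one] at this
    rw [hcoe] at this
    exact this
  have hu0 : u ≠ 0 := by
    intro h0
    rw [h0, zero_mul] at huv
    exact zero_ne_one huv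
  have hvinv : (v : F) = u⁻¹ := eq_inv_of_mul_eq_one_right huv
  -- `u⁻¹` comes from `Rw ∩ K(s)`
  have huE : algebraMap K⟮s⟯ F (IntRed.evalE R s d) = u := IntRed.algebraMap_evalE hs.1 d
  have hmem : (IntRed.evalE R s d)⁻¹ ∈
      (R.Rw.comap (algebraMap K⟮s⟯ F) : ValuationSubring K⟮s⟯) := by
    change algebraMap K⟮s⟯ F (IntRed.evalE R s d)⁻¹ ∈ R.Rw
    rw [map_inv₀, huE, ← hvinv]
    exact v.2
  have hinv : IsIntegral ↥(R.Rw.comap (algebraMap K⟮s⟯ F) : ValuationSubring K⟮s⟯) u⁻¹ := by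
    have h1 := isIntegral_algebraMap
      (R := ↥(R.Rw.comap (algebraMap K⟮s⟯ F) : ValuationSubring K⟮s⟯)) (A := F)
      (x := ⟨(IntRed.evalE R s d)⁻¹, hmem⟩)
    have h2 : algebraMap ↥(R.Rw.comap (algebraMap K⟮s⟯ F) : ValuationSubring K⟮s⟯) F
        ⟨(IntRed.evalE R s d)⁻¹, hmem⟩ = u⁻¹ := by
      change algebraMap K⟮s⟯ F (IntRed.evalE R s d)⁻¹ = u⁻¹
      rw [map_inv₀, huE]
    rwa [h2] at h1
  have hx_eq : x = u⁻¹ * (u * x) := by
    rw [← mul_assoc, inv_mul_cancel₀ hu0, one_mul]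
  rw [hx_eq]
  exact hinv.mul hy

end Generic

section Bar

open Fermat.Agent.GJ.J1.Val Fermat.Agent.S24

variable (M : ℕ) [NeZero M] {ℓ : ℕ} [Fact ℓ.Prime] (hℓM : ¬ ℓ ∣ M)
variable (A : ValuationSubring Kbar) (hA : A.LiesOverPrime ℓ)

/-- the inclusion `F_M → ℚ̄((q))` -/
abbrev inclF : FN M →+* LaurentSeries Kbar := (modularFunctionFieldBar M).val.toRingHom

theorem inclF_injective : Function.Injective (inclF M) := Subtype.val_injective

/-- `j` is the chart of `isGaussChart_j` -/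
theorem isGaussChart_jF : (redDataBar M A).IsGaussChart (jF M) := by
  have h := isGaussChart_j M A
  have e : (⟨emb A (jqModC A), by
        have := emb_gen_mem M A (one_dvd M)
        rwa [qExpand_one_apply] at this⟩ : modularFunctionFieldBar M) = jF M := by
    apply Subtype.ext
    rw [Degree.coe_jF']
    exact coeffMap_jqModC _
  rwa [e] at h

include hℓM hA in
/-- the q-expansion principle in the language of the reduction datum -/
theorem core_bar (y : FN M) (hy : y ∈ (redDataBar M A).Rw) (hreg : RegFin Kbar (jF M) y) :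
    ∃ Q : A[X][X], Q.Monic ∧
      biv ((algebraMap Kbar (FN M)).comp A.subtype) (jF M) y Q = 0 := by
  obtain ⟨a, b, ha, hb, hbr, hab⟩ := (mem_Rw_iff (A := A) (F := modularFunctionFieldBar M)
    (hGF := hasGaussFrac_bar M A)).mp hy
  -- integrality over `ℚ̄[j]` inside `ℚ̄((q))`
  obtain ⟨p, hp, hp0⟩ := (isIntegral_adjoin_singleton_iff _ _).mp hreg
  have hint : IsIntegral (Algebra.adjoin Kbar {jqModC Kbar}) (y : LaurentSeries Kbar) := by
    refine (isIntegral_adjoin_singleton_iff _ _).mpr ⟨p, hp, ?_⟩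
    have h1 := map_biv (RingHom.id Kbar) (inclF M) (algebraMap Kbar (FN M))
      (algebraMap Kbar (LaurentSeries Kbar)) (fun r => rfl) (jF M) y p
    rw [hp0, map_zero] at h1
    have h2 : p.map (Polynomial.mapRingHom (RingHom.id Kbar)) = p := by
      rw [Polynomial.mapRingHom_id, Polynomial.map_id]
    rw [h2] at h1
    have h3 : inclF M (jF M) = jqModC Kbar := Degree.coe_jF' M
    rw [h3] at h1
    exact h1.symm
  obtain ⟨Q, hQ, hQ0⟩ := qexp_principle_fin_frac M hℓM A hA (y : LaurentSeries Kbar) a b y.2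
    ha hb hbr hab hint
  refine ⟨Q, hQ, inclF_injective M ?_⟩
  rw [map_zero]
  have h1 := map_biv (RingHom.id A) (inclF M)
    ((algebraMap Kbar (FN M)).comp A.subtype)
    ((algebraMap Kbar (LaurentSeries Kbar)).comp A.subtype) (fun r => rfl) (jF M) y Q
  have h2 : Q.map (Polynomial.mapRingHom (RingHom.id A)) = Q := by
    rw [Polynomial.mapRingHom_id, Polynomial.map_id]
  rw [h2] at h1
  have h3 : inclF M (jF M) = jqModC Kbar := Degree.coe_jF' M
  rw [h3] at h1
  rw [h1]
  exact hQ0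

include hℓM hA in
/-- **Uniqueness of the Gauss valuation on `F_M`**: `Rw` is integral over `Rw ∩ ℚ̄(j)`. -/
theorem huniq_bar : IntRed.Huniq (redDataBar M A) Kbar⟮jF M⟯ := by
  have hfd : FiniteDimensional Kbar⟮jF M⟯ (FN M) := (Fermat.Agent.S24_helper62.m9 M).2.1
  exact huniq_of_core (isGaussChart_jF M A) (Algebra.IsAlgebraic.of_finite _ _)
    (fun y hy hreg => core_bar M hℓM A hA y hy hreg)

include hℓM hA in
/-- **M-GAUSS, final form**: `RedRegFin` at every Gauss chart `t` with `ℚ̄(j) ≤ ℚ̄(t)`. -/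
theorem redRegFin_bar {t : FN M} (hjt : Kbar⟮jF M⟯ ≤ Kbar⟮t⟯)
    (ht : (redDataBar M A).IsGaussChart t) : (redDataBar M A).RedRegFin t :=
  IntRed.redRegFin_of_huniq ht ((huniq_bar M hℓM A hA).mono hjt)

include hℓM hA in
/-- `RedRegFin` at the inverse chart -/
theorem redRegFin_bar_inv {t : FN M} (hjt : Kbar⟮jF M⟯ ≤ Kbar⟮t⟯)
    (ht : (redDataBar M A).IsGaussChart t) : (redDataBar M A).RedRegFin t⁻¹ := by
  have hu : IntRed.Huniq (redDataBar M A) Kbar⟮t⟯ := (huniq_bar M hℓM A hA).mono hjt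
  -- `t⁻¹ ∈ Rw` since `red t ≠ 0`
  obtain ⟨ht1, htr⟩ := ht
  have hne : (redDataBar M A).red ⟨t, ht1⟩ ≠ 0 := by
    intro h0
    rw [h0] at htr
    exact htr isAlgebraic_zero
  have hunit : IsUnit (⟨t, ht1⟩ : (redDataBar M A).Rw) := by
    by_contra hnu
    exact hne (((redDataBar M A).red_eq_zero_iff _).2 ((IsLocalRing.mem_maximalIdeal _).2 hnu))
  obtain ⟨v, hv⟩ := hunit.exists_right_inv
  have htv : t * (v : FN M) = 1 := by
    have := congrArg (fun z : (redDataBar M A).Rw => (z : FN M)) hv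
    simpa using this
  have hti : t⁻¹ ∈ (redDataBar M A).Rw := by
    rw [← eq_inv_of_mul_eq_one_right htv]
    exact v.2
  exact IntRed.redRegFin_inv_of_huniq ⟨ht1, htr⟩ hti hu

end Bar

end Fermat.Agent.GJ.Gauss
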