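import Fermat.Agent.GJ.J1.Gauss.CoreA
import Fermat.Prelude.Def_ModularCurve_ArithmeticGalois

/-!
# GATE-J / J1 / M-GAUSS: the q-expansion principle over valuation rings of `ℚ̄` (final form)

`Qb := AlgebraicClosure ℚ`, `A : ValuationSubring Qb` above the prime `ℓ`, `ℓ ∤ M`.

* `qexp_principle_fin`: `y ∈ A((q))`, image in `modularFunctionFieldBar M`, integral over
  `Qb[j]` ⟹ `y` integral over `A[j]` inside `A((q))`;
* `qexp_principle_inf`: the same for the chart `1/j`;
* `isIntegral_coeffMap_fin / inf`: consequently, for every ring homomorphism `π : A →+* k`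
  (e.g. the residue map) the reduction `coeffMap π y` is integral over `k[j]` (resp. `k[1/j]`).
-/

set_option autoImplicit false
set_option linter.unusedSectionVars false

noncomputable section

namespace Fermat.Agent.GJ.Gauss

open Polynomial ModularCurve Fermat.Agent.S28

theorem isAlgebraic_Qbar : Algebra.IsAlgebraic ℚ (AlgebraicClosure ℚ) :=
  AlgebraicClosure.isAlgebraic ℚ

/-- an embedding of `ℚ̄` into `ℂ` together with a preimage of `exp(2πi/M)` -/
theorem exists_embedding_zeta (M : ℕ) [NeZero M] :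
    ∃ (ι : AlgebraicClosure ℚ →+* ℂ) (zL : AlgebraicClosure ℚ), ι zL = zetaC M := by
  haveI := isAlgebraic_Qbar
  let ι : AlgebraicClosure ℚ →+* ℂ :=
    ((IsAlgClosed.lift : AlgebraicClosure ℚ →ₐ[ℚ] ℂ) : AlgebraicClosure ℚ →+* ℂ)
  haveI : NeZero ((M : ℕ) : ℚ) := ⟨by exact_mod_cast NeZero.ne M⟩
  obtain ⟨ζ, hζ⟩ := HasEnoughRootsOfUnity.exists_primitiveRoot (AlgebraicClosure ℚ) M
  have hζ' : IsPrimitiveRoot (ι ζ) M := hζ.map_of_injective ι.injective
  obtain ⟨i, -, hi⟩ := hζ'.eq_pow_of_pow_eq_one ((zetaC_isPrimitiveRoot M).pow_eq_one)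
  exact ⟨ι, ζ ^ i, by rw [map_pow, hi]⟩

section Final

variable (M : ℕ) [NeZero M] {ℓ : ℕ} [Fact ℓ.Prime] (hℓM : ¬ ℓ ∣ M)
variable (A : ValuationSubring (AlgebraicClosure ℚ)) (hA : A.LiesOverPrime ℓ)

include hℓM hA in
/-- **q-expansion principle over `A`, chart `j`.** -/
theorem qexp_principle_fin (y : LaurentSeries A)
    (hy : coeffMap A.subtype y ∈ modularFunctionFieldBar M)
    (hint : IsIntegral (Algebra.adjoin (AlgebraicClosure ℚ) {jqModC (AlgebraicClosure ℚ)})
      (coeffMap A.subtype y)) :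
    IsIntegral (Algebra.adjoin A {jqModC A}) y := by
  haveI := isAlgebraic_Qbar
  obtain ⟨ι, zL, hz⟩ := exists_embedding_zeta M
  exact coreA_fin A M ι hA hℓM hz y hy hint

include hℓM hA in
/-- **q-expansion principle over `A`, chart `1/j`.** -/
theorem qexp_principle_inf (y : LaurentSeries A)
    (hy : coeffMap A.subtype y ∈ modularFunctionFieldBar M)
    (hint : IsIntegral (Algebra.adjoin (AlgebraicClosure ℚ) {(jqModC (AlgebraicClosure ℚ))⁻¹})
      (coeffMap A.subtype y)) :
    IsIntegral (Algebra.adjoin A {PolyDescent.jInvS A}) y := by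
  haveI := isAlgebraic_Qbar
  obtain ⟨ι, zL, hz⟩ := exists_embedding_zeta M
  exact coreA_inf A M ι hA hℓM hz y hy hint

end Final

section Reduce

variable {R k : Type*} [CommRing R] [Nontrivial R] [CommRing k] [Nontrivial k]

/-- integrality over `R[T]` inside `R((q))` is preserved by coefficientwise ring homomorphisms -/
theorem isIntegral_coeffMap (π : R →+* k) {T y : LaurentSeries R}
    (h : IsIntegral (Algebra.adjoin R {T}) y) :
    IsIntegral (Algebra.adjoin k {coeffMap π T}) (coeffMap π y) := by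
  obtain ⟨p, hp, hp0⟩ := (isIntegral_adjoin_singleton_iff _ _).mp h
  refine (isIntegral_adjoin_singleton_iff _ _).mpr
    ⟨p.map (Polynomial.mapRingHom π), hp.map _, ?_⟩
  rw [← map_biv π (coeffMap π) (algebraMap R (LaurentSeries R)) (algebraMap k (LaurentSeries k))
    (fun r => coeffMap_algebraMap_laurent π r), hp0, map_zero]

end Reduce

section FinalReduced

variable (M : ℕ) [NeZero M] {ℓ : ℕ} [Fact ℓ.Prime] (hℓM : ¬ ℓ ∣ M)
variable (A : ValuationSubring (AlgebraicClosure ℚ)) (hA : A.LiesOverPrime ℓ)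
variable {k : Type*} [Field k] (π : A →+* k)

include hℓM hA in
/-- the reduction of an `A`-integral element of the function field which is integral over
`ℚ̄[j]` is integral over `k[j̃]` -/
theorem isIntegral_coeffMap_fin (y : LaurentSeries A)
    (hy : coeffMap A.subtype y ∈ modularFunctionFieldBar M)
    (hint : IsIntegral (Algebra.adjoin (AlgebraicClosure ℚ) {jqModC (AlgebraicClosure ℚ)})
      (coeffMap A.subtype y)) :
    IsIntegral (Algebra.adjoin k {jqModC k}) (coeffMap π y) := by
  have h := isIntegral_coeffMap π (qexp_principle_fin M hℓM A hA y hy hint)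
  rwa [coeffMap_jqModC] at h

include hℓM hA in
/-- the same for the chart `1/j` -/
theorem isIntegral_coeffMap_inf (y : LaurentSeries A)
    (hy : coeffMap A.subtype y ∈ modularFunctionFieldBar M)
    (hint : IsIntegral (Algebra.adjoin (AlgebraicClosure ℚ) {(jqModC (AlgebraicClosure ℚ))⁻¹})
      (coeffMap A.subtype y)) :
    IsIntegral (Algebra.adjoin k {(jqModC k)⁻¹}) (coeffMap π y) := by
  have h := isIntegral_coeffMap π (qexp_principle_inf M hℓM A hA y hy hint)
  rwa [PolyDescent.coeffMap_jInvS, jInvS_eq_inv] at h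

end FinalReduced

end Fermat.Agent.GJ.Gauss
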