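import Fermat.Agent.GJ.J1.Gauss.CoreDVR
import Fermat.Agent.S28.DatumInst

/-!
# GATE-J / J1 / M-GAUSS, step B: the DVR `A ∩ E` of a number field `E ⊆ L` and its cusp datum

`L` a field of characteristic zero, `A` a valuation subring of `L` above the prime `ℓ`,
`E ⊆ L` a number field.  Then `OE A E`, the localisation of `𝓞 E` at the prime `A.nonunits ∩ 𝓞 E`
(realised inside `E`), is a discrete valuation ring with fraction field `E` and
`x ∈ OE A E ↔ (x : L) ∈ A`.  If moreover `E` contains an element `zL` that an embedding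
`ι : L →+* ℂ` sends to `exp(2πi/N)` and `ℓ ∤ N`, T28 gives a cusp datum `CuspDatum E N (OE A E)`.
-/

set_option autoImplicit false
set_option linter.unusedSectionVars false

noncomputable section

namespace Fermat.Agent.GJ.Gauss

open NumberField Fermat.Agent.S28

section OE

variable {L : Type} [Field L] [Algebra ℚ L] (A : ValuationSubring L)
variable (E : IntermediateField ℚ L) [NumberField E]

/-- integral elements lie in every valuation subring -/
theorem mem_of_isIntegral_int {x : L} (hx : IsIntegral ℤ x) : x ∈ A := by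
  have h1 : IsIntegral A x := hx.tower_top
  obtain ⟨y, hy⟩ := (IsIntegrallyClosed.isIntegral_iff (R := A) (K := L)).mp h1
  rw [← hy]
  exact y.2

theorem coe_ringOfIntegers_mem (a : 𝓞 E) : (((a : E) : L)) ∈ A := by
  apply mem_of_isIntegral_int
  have h1 : IsIntegral ℤ (a : E) := a.2
  exact h1.map (IsScalarTower.toAlgHom ℤ E L)

/-- `𝓞 E → A` -/
def intToA : 𝓞 E →+* A where
  toFun a := ⟨((a : E) : L), coe_ringOfIntegers_mem A E a⟩
  map_one' := by ext; simp
  map_mul' a b := by ext; simp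
  map_zero' := by ext; simp
  map_add' a b := by ext; simp

@[simp] theorem coe_intToA (a : 𝓞 E) : ((intToA A E a : A) : L) = ((a : E) : L) := rfl

/-- the prime of `𝓞 E` below the maximal ideal of `A` -/
def primeE : Ideal (𝓞 E) := (IsLocalRing.maximalIdeal A).comap (intToA A E)

instance primeE_isPrime : (primeE A E).IsPrime := Ideal.comap_isPrime _ _

theorem mem_primeE_iff (a : 𝓞 E) : a ∈ primeE A E ↔ ((a : E) : L) ∈ A.nonunits := by
  rw [primeE, Ideal.mem_comap, IsLocalRing.mem_maximalIdeal, mem_nonunits_iff,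
    A.mem_nonunits_iff_exists_mem_maximalIdeal]
  constructor
  · intro h
    exact ⟨coe_ringOfIntegers_mem A E a, h⟩
  · rintro ⟨h1, h2⟩
    exact h2

/-- the localisation of `𝓞 E` at `primeE`, realised inside `E` -/
def OE : Subalgebra (𝓞 E) E :=
  Localization.subalgebra.ofField E (primeE A E).primeCompl
    (primeE A E).primeCompl_le_nonZeroDivisors

instance isLocalization_OE : IsLocalization.AtPrime (OE A E) (primeE A E) :=
  Localization.subalgebra.isLocalization_ofField E _ _

instance isFractionRing_OE : IsFractionRing (OE A E) E :=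
  Localization.subalgebra.isFractionRing_ofField E _ _

instance isLocalRing_OE : IsLocalRing (OE A E) :=
  IsLocalization.AtPrime.isLocalRing (OE A E) (primeE A E)

theorem mem_OE_iff' (x : E) : x ∈ OE A E ↔
    ∃ a s : 𝓞 E, s ∉ primeE A E ∧ x = (a : E) * ((s : E))⁻¹ := by
  constructor
  · rintro ⟨a, s, hs, rfl⟩
    exact ⟨a, s, hs, rfl⟩
  · rintro ⟨a, s, hs, rfl⟩
    exact ⟨a, s, hs, rfl⟩

theorem coe_mem_OE (a : 𝓞 E) : (a : E) ∈ OE A E := (OE A E).algebraMap_mem a

theorem inv_mem_of_not_mem_primeE {s : 𝓞 E} (hs : s ∉ primeE A E) : (((s : E) : L))⁻¹ ∈ A := by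
  rw [mem_primeE_iff, ValuationSubring.mem_nonunits_iff_or, not_or, not_not] at hs
  exact hs.2

/-- elements of `OE` lie in `A` -/
theorem coe_mem_of_mem_OE {x : E} (hx : x ∈ OE A E) : (x : L) ∈ A := by
  obtain ⟨a, s, hs, rfl⟩ := (mem_OE_iff' A E x).mp hx
  have : (((a : E) * ((s : E))⁻¹ : E) : L) = ((a : E) : L) * (((s : E) : L))⁻¹ := by
    simp
  rw [this]
  exact A.mul_mem _ _ (coe_ringOfIntegers_mem A E a) (inv_mem_of_not_mem_primeE A E hs)

variable {ℓ : ℕ} [Fact ℓ.Prime]

theorem primeE_ne_bot (hA : A.LiesOverPrime ℓ) : primeE A E ≠ ⊥ := by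
  intro h
  have h1 : ((ℓ : ℕ) : 𝓞 E) ∈ primeE A E := by
    rw [mem_primeE_iff]
    have : ((((ℓ : ℕ) : 𝓞 E) : E) : L) = (ℓ : L) := by simp
    rw [this]
    exact hA
  rw [h, Ideal.mem_bot] at h1
  exact (Fact.out : ℓ.Prime).ne_zero (by exact_mod_cast h1)

theorem isDiscreteValuationRing_OE (hA : A.LiesOverPrime ℓ) :
    IsDiscreteValuationRing (OE A E) :=
  IsLocalization.AtPrime.isDiscreteValuationRing_of_dedekind_domain (𝓞 E)
    (primeE_ne_bot A E hA) _

/-- **`OE = A ∩ E`.** -/
theorem mem_OE_iff (hA : A.LiesOverPrime ℓ) (x : E) : x ∈ OE A E ↔ (x : L) ∈ A := by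
  refine ⟨coe_mem_of_mem_OE A E, fun hx => ?_⟩
  have := isDiscreteValuationRing_OE A E hA
  by_contra hxO
  -- `x⁻¹` is a non-unit of `OE`, hence a non-unit of `A`
  have hx0 : x ≠ 0 := by
    rintro rfl
    exact hxO (zero_mem _)
  obtain ⟨y, hy⟩ | ⟨y, hy⟩ := ValuationRing.isInteger_or_isInteger (OE A E) x
  · exact hxO (by rw [← hy]; exact y.2)
  · -- `x⁻¹ = y ∈ OE`
    have hy' : (y : E) = x⁻¹ := hy
    have hynu : ¬ IsUnit y := by
      rintro ⟨u, hu⟩
      apply hxO
      have : x = ((u⁻¹ : (OE A E)ˣ) : OE A E) := by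
        have h3 : ((u : OE A E) : E) * (((u⁻¹ : (OE A E)ˣ) : OE A E) : E) = 1 := by
          rw [← Subalgebra.coe_mul]
          simp
        rw [hu, hy'] at h3
        have := eq_inv_of_mul_eq_one_right h3
        rw [inv_inv] at this
        exact this.symm ▸ rfl
      rw [this]
      exact SetLike.coe_mem _
    -- write `y = a / s`; then `a ∈ primeE`
    obtain ⟨a, s, hs, hys⟩ := (mem_OE_iff' A E y).mp y.2
    have ha : a ∈ primeE A E := by
      by_contra ha
      apply hynu
      have hs0 : (s : E) ≠ 0 := by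
        intro h0
        apply hs
        have : s = 0 := by exact_mod_cast h0
        rw [this]
        exact zero_mem _
      have ha0 : (a : E) ≠ 0 := by
        intro h0
        apply ha
        have : a = 0 := by exact_mod_cast h0
        rw [this]
        exact zero_mem _
      refine IsUnit.of_mul_eq_one (⟨(s : E) * ((a : E))⁻¹,
        (mem_OE_iff' A E _).mpr ⟨s, a, ha, rfl⟩⟩ : OE A E) (Subtype.ext ?_)
      rw [Subalgebra.coe_mul, Subalgebra.coe_one, hys]
      field_simp
    have hsinv : (((s : E) : L))⁻¹ ∈ A := inv_mem_of_not_mem_primeE A E hs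
    rw [mem_primeE_iff] at ha
    -- then `x⁻¹ = a/s` is a nonunit of `A`, contradiction with `x ∈ A`
    have hinv : ((x : L))⁻¹ = ((a : E) : L) * (((s : E) : L))⁻¹ := by
      have : ((x⁻¹ : E) : L) = (((a : E) * ((s : E))⁻¹ : E) : L) := by rw [← hy', hys]
      simpa using this
    have h1 : ((x : L))⁻¹ ∈ A.nonunits := by
      rw [hinv, ValuationSubring.mem_nonunits_iff, map_mul]
      rw [ValuationSubring.mem_nonunits_iff] at ha
      rw [← ValuationSubring.valuation_le_one_iff] at hsinv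
      calc A.valuation ((a : E) : L) * A.valuation (((s : E) : L))⁻¹
          ≤ A.valuation ((a : E) : L) * 1 := by gcongr
        _ < 1 := by rwa [mul_one]
    rw [ValuationSubring.inv_mem_nonunits_iff] at h1
    rcases h1 with h1 | h1
    · apply hx0
      exact_mod_cast h1
    · exact h1 hx

/-- natural numbers prime to `ℓ` are not in the maximal ideal of `A` -/
theorem natCast_not_mem_nonunits (hA : A.LiesOverPrime ℓ) {D : ℕ} (hD : ¬ ℓ ∣ D) :
    (D : L) ∉ A.nonunits := by
  intro hDn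
  have hcop : Nat.Coprime D ℓ :=
    (Nat.Coprime.symm ((Nat.Prime.coprime_iff_not_dvd Fact.out).mpr hD))
  have h1 : ((D : ℕ) : A) ∈ IsLocalRing.maximalIdeal A := by
    rw [← ValuationSubring.coe_mem_nonunits_iff]
    have : (((D : ℕ) : A) : L) = (D : L) := by simp
    rw [this]
    exact hDn
  have h2 : ((ℓ : ℕ) : A) ∈ IsLocalRing.maximalIdeal A := by
    rw [← ValuationSubring.coe_mem_nonunits_iff]
    have : (((ℓ : ℕ) : A) : L) = (ℓ : L) := by simp
    rw [this]
    exact hA
  have h3 : (1 : A) ∈ IsLocalRing.maximalIdeal A := by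
    have hb := Nat.Coprime.gcd_eq_one hcop
    have := Int.gcd_eq_gcd_ab D ℓ
    rw [Int.gcd_natCast_natCast, hb] at this
    have h4 : (1 : A) = ((D : ℕ) : A) * ((Int.gcdA D ℓ : ℤ) : A) +
        ((ℓ : ℕ) : A) * ((Int.gcdB D ℓ : ℤ) : A) := by
      have := congrArg (fun z : ℤ => (z : A)) this
      push_cast at this
      exact this
    rw [h4]
    exact Ideal.add_mem _ (Ideal.mul_mem_right _ _ h1) (Ideal.mul_mem_right _ _ h2)
  exact (Ideal.ne_top_iff_one _).mp (IsLocalRing.maximalIdeal.isMaximal A).ne_top h3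

theorem isUnit_natCast_OE (hA : A.LiesOverPrime ℓ) {D : ℕ} (hD : ¬ ℓ ∣ D) :
    IsUnit ((D : ℕ) : OE A E) := by
  have h1 : ((D : ℕ) : 𝓞 E) ∉ primeE A E := by
    rw [mem_primeE_iff]
    have : ((((D : ℕ) : 𝓞 E) : E) : L) = (D : L) := by simp
    rw [this]
    exact natCast_not_mem_nonunits A hA hD
  have := IsLocalization.map_units (OE A E) (⟨((D : ℕ) : 𝓞 E), h1⟩ : (primeE A E).primeCompl)
  simpa using this

end OE

section Datum

variable {L : Type} [Field L] [Algebra ℚ L] (A : ValuationSubring L)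
variable (E : IntermediateField ℚ L) [NumberField E]
variable {ℓ : ℕ} [Fact ℓ.Prime]
variable (N : ℕ) [NeZero N] (ι : L →+* ℂ) {zL : L} (hz : ι zL = zetaC N) (hzE : zL ∈ E)

include hz in
theorem zL_pow_eq_one : zL ^ N = 1 := by
  apply ι.injective
  rw [map_pow, hz, map_one]
  exact (zetaC_isPrimitiveRoot N).pow_eq_one

/-- `ζ_N` as an element of `E` -/
def zE : E := ⟨zL, hzE⟩

include hz in
theorem zE_pow_eq_one : (zE E hzE) ^ N = 1 := by
  apply Subtype.ext
  simpa [zE] using zL_pow_eq_one N ι hz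

include hz in
theorem zE_isIntegral : IsIntegral ℤ (zE E hzE) :=
  IsIntegral.of_pow (NeZero.pos N) (by rw [zE_pow_eq_one E N ι hz hzE]; exact isIntegral_one)

/-- `ζ_N` as an element of `OE` -/
def zO : OE A E := ⟨zE E hzE, coe_mem_OE A E ⟨zE E hzE, zE_isIntegral E N ι hz hzE⟩⟩

include hz hzE in
theorem zO_pow_eq_one : (zO A E N ι hz hzE) ^ N = 1 := by
  apply Subtype.ext
  simpa [zO] using zE_pow_eq_one E N ι hz hzE

include hz hzE in
theorem isUnit_zO : IsUnit (zO A E N ι hz hzE) := by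
  refine IsUnit.of_mul_eq_one ((zO A E N ι hz hzE) ^ (N - 1)) ?_
  rw [← pow_succ', Nat.sub_add_cancel (NeZero.pos N), zO_pow_eq_one]

/-- the embedding `E → ℂ` -/
def embE : E →+* ℂ := ι.comp (algebraMap E L)

include hz hzE in
theorem exists_unit_OE_twist {D : ℕ} (hD : D ∣ N) (B : ℕ) :
    ∃ u : (OE A E)ˣ, embE E ι (algebraMap (OE A E) E (u : OE A E)) =
      Complex.exp (2 * Real.pi * Complex.I * B / D) := by
  refine ⟨(isUnit_zO A E N ι hz hzE).unit ^ (N / D * B), ?_⟩
  rw [Units.val_pow_eq_pow_val, IsUnit.unit_spec, map_pow, map_pow, ← zetaC_pow_div N hD B]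
  congr 1

/-- **The cusp datum over `(E, OE)`**, `ℓ ∤ N`, `ζ_N ∈ E`. -/
def datumE (hA : A.LiesOverPrime ℓ) (hℓN : ¬ ℓ ∣ N) : CuspDatum E N (OE A E) :=
  Assemble.cuspDatumOfAnalytic N (embE E ι)
    (fun _ B hD => exists_unit_OE_twist A E N ι hz hzE hD B)
    (fun _ hD => isUnit_natCast_OE A E hA (fun h => hℓN (h.trans hD)))
    (CuspExp.analyticFacts N)

end Datum

end Fermat.Agent.GJ.Gauss
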