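import Fermat.Agent.GJ.J1.IntegralityRed
import Fermat.Agent.GJ.J1.Integrality

/-!
# GATE-J / J1 / M-GAUSS glue: uniqueness of the Gauss extension is monotone in the chart

`R : RedData K F k Ft`.  For a chart `s` write `Huniq R s` for helper18's hypothesis
"every element of `Rw` is integral over `Rw ∩ K(s)`" (`IntRed.regFin_red`).

* `Huniq.mono` : `K(s) ≤ K(s')` and `Huniq R s` give `Huniq R s'`
  (so uniqueness at the chart `j` gives uniqueness at `t₂, t₃, t⁻¹, t - c, (t - a)⁻¹, …`);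
* `redRegFin_of_huniq` : `Huniq R s₀`, `K(s₀) ≤ K(s)`, `s` a Gauss chart ⟹ `R.RedRegFin s`
  (the hypothesis-form M-GAUSS statement of `Integrality.lean`).
-/

set_option autoImplicit false

namespace Fermat.Agent.GJ.Gauss

open Polynomial IntermediateField Fermat.Agent.GJ.J1

variable {K F k Ft : Type*} [Field K] [Field F] [Algebra K F] [Field k] [Field Ft] [Algebra k Ft]

/-- helper18's uniqueness hypothesis for the chart `s`: `Rw` is integral over `Rw ∩ K(s)`. -/
def Huniq (R : RedData K F k Ft) (s : F) : Prop :=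
  ∀ x : F, x ∈ R.Rw →
    IsIntegral ↥(R.Rw.comap (algebraMap K⟮s⟯ F) : ValuationSubring K⟮s⟯) x

variable {R : RedData K F k Ft}

/-- the inclusion `Rw ∩ K(s) → Rw ∩ K(s')` for `K(s) ≤ K(s')` -/
noncomputable def ovIncl (R : RedData K F k Ft) {s s' : F} (h : K⟮s⟯ ≤ K⟮s'⟯) :
    ↥(R.Rw.comap (algebraMap K⟮s⟯ F) : ValuationSubring K⟮s⟯) →+*
      ↥(R.Rw.comap (algebraMap K⟮s'⟯ F) : ValuationSubring K⟮s'⟯) where
  toFun x := ⟨IntermediateField.inclusion h x.1, x.2⟩
  map_one' := Subtype.ext (by simp)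
  map_mul' a b := Subtype.ext (by simp)
  map_zero' := Subtype.ext (by simp)
  map_add' a b := Subtype.ext (by simp)

/-- uniqueness of the extension of the Gauss valuation is monotone in the chart -/
theorem Huniq.mono {s s' : F} (h : K⟮s⟯ ≤ K⟮s'⟯) (hu : Huniq R s) : Huniq R s' := by
  intro x hx
  have h1 := hu x hx
  have := IsIntegral.map_of_comp_eq (ovIncl R h) (RingHom.id F) (by
    ext a
    rfl) h1
  simpa using this

/-- **M-GAUSS in hypothesis form** at every Gauss chart `s` whose field contains the field of a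
chart `s₀` at which the Gauss valuation extends uniquely. -/
theorem redRegFin_of_huniq {s₀ s : F} (h : K⟮s₀⟯ ≤ K⟮s⟯) (hu : Huniq R s₀)
    (hs : R.IsGaussChart s) : R.RedRegFin s := by
  intro hs' z hz hreg
  exact IntRed.regFin_red hs (Huniq.mono h hu) hreg hz

/-- `K(s⁻¹) = K(s)`, `K(s - c) = K(s)`: the usual charts -/
theorem adjoin_le_of_mem {s s' : F} (h : s ∈ K⟮s'⟯) : K⟮s⟯ ≤ K⟮s'⟯ := by
  rw [IntermediateField.adjoin_simple_le_iff]
  exact h

theorem adjoin_inv_le (s : F) : K⟮s⟯ ≤ K⟮s⁻¹⟯ :=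
  adjoin_le_of_mem (by
    have h : (s⁻¹)⁻¹ ∈ K⟮s⁻¹⟯ := inv_mem (IntermediateField.mem_adjoin_simple_self K s⁻¹)
    rwa [inv_inv] at h)

theorem adjoin_sub_le (s : F) (c : K) : K⟮s⟯ ≤ K⟮s - algebraMap K F c⟯ :=
  adjoin_le_of_mem (by
    have h : (s - algebraMap K F c) + algebraMap K F c ∈ K⟮s - algebraMap K F c⟯ :=
      add_mem (IntermediateField.mem_adjoin_simple_self K _)
        (IntermediateField.algebraMap_mem _ c)
    rwa [sub_add_cancel] at h)

end Fermat.Agent.GJ.Gauss
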